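import Fermat.Agent.GT.Val.Norm.Ord

/-! GT-VAL, layer Norm, file Approx: weak approximation for finitely many discrete valuation subrings.

`e i` as in `hsep`; `S = ∑ e j` is a unit of every `𝒪 i`; `ε i = e i / S` is `≡ 1` at `𝒪 i` and lies in
`𝔪(𝒪 j)`, `j ≠ i`.  For `m` large `(ε i)^m x i ∈ 𝔪(𝒪 j)` for all `j ≠ i` (`hdv j`: `v_j(x i) = v_j(π j)^a`,
`v_j(ε i) ≤ v_j(π j)`), and `(ε i)^m x i ≡ x i` at `𝒪 i`.  `z = ∑ (ε i)^m x i`. -/

set_option autoImplicit false

namespace Fermat.Agent.GT.Val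

section Aux

variable {K : Type*} [Field K] (V : ValuationSubring K)

theorem Approx_nonunits_add {a b : K} (ha : a ∈ V.nonunits) (hb : b ∈ V.nonunits) :
    a + b ∈ V.nonunits := by
  rw [V.mem_nonunits_iff] at *
  exact V.valuation.map_add_lt ha hb

theorem Approx_nonunits_mul {a b : K} (ha : a ∈ V) (hb : b ∈ V.nonunits) : a * b ∈ V.nonunits := by
  rw [V.mem_nonunits_iff] at *
  rw [map_mul]
  exact mul_lt_of_le_one_of_lt ((V.valuation_le_one_iff a).2 ha) hb

theorem Approx_zero_mem_nonunits : (0 : K) ∈ V.nonunits := by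
  rw [V.mem_nonunits_iff, map_zero]
  exact zero_lt_one

theorem Approx_nonunits_sum {ι : Type*} (s : Finset ι) (f : ι → K)
    (h : ∀ i ∈ s, f i ∈ V.nonunits) : ∑ i ∈ s, f i ∈ V.nonunits := by
  rw [V.mem_nonunits_iff]
  exact V.valuation.map_sum_lt one_ne_zero fun i hi => (V.mem_nonunits_iff).1 (h i hi)

theorem Approx_mem_nonunits_iff (a : K) : a ∈ V.nonunits ↔ a = 0 ∨ a⁻¹ ∉ V := by
  by_cases h0 : a = 0
  · subst h0
    exact ⟨fun _ => Or.inl rfl, fun _ => Approx_zero_mem_nonunits V⟩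
  · rw [V.mem_nonunits_iff, ← V.valuation_le_one_iff, map_inv₀,
      inv_le_one₀ (zero_lt_iff.2 ((V.valuation.ne_zero_iff).2 h0)), not_le]
    exact ⟨fun h => Or.inr h, fun h => h.resolve_left h0⟩

/-- `ε ≡ 1` implies `ε ^ m ≡ 1`. -/
theorem Approx_pow_sub_one_mem {ε : K} (h : ε - 1 ∈ V.nonunits) (m : ℕ) :
    ε ^ m - 1 ∈ V.nonunits := by
  have hε : ε ∈ V := by
    have := V.add_mem _ _ (ValuationSubring.nonunits_subset h) V.one_mem
    simpa using this
  induction m with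
  | zero => simpa using Approx_zero_mem_nonunits V
  | succ m ih =>
    have e : ε ^ (m + 1) - 1 = ε * (ε ^ m - 1) + (ε - 1) := by ring
    rw [e]
    exact Approx_nonunits_add V (Approx_nonunits_mul V hε ih) h

/-- high powers of an element of the maximal ideal kill every denominator. -/
theorem Approx_pow_mul_mem {V : ValuationSubring K} {π : K} (h : IsDV V π) {ε : K}
    (hε : ε ∈ V.nonunits) (x : K) : ∃ a : ℕ, ∀ m, a ≤ m → ε ^ m * x ∈ V.nonunits := by
  by_cases hx : x = 0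
  · exact ⟨0, fun m _ => by rw [hx, mul_zero]; exact Approx_zero_mem_nonunits V⟩
  obtain ⟨a, ha⟩ := h.disc x⁻¹ (inv_ne_zero hx)
  have hπ0 := h.ne_zero
  have hw : x * π ^ a ∈ V.nonunits := by
    rw [Approx_mem_nonunits_iff]
    right
    have e : (x * π ^ a)⁻¹ = x⁻¹ / π ^ a := by
      rw [mul_inv, div_eq_mul_inv]
    rwa [e]
  have hu : ε / π ∈ V := h.unif ε hε
  have hπV : π ∈ V := ValuationSubring.nonunits_subset h.mem
  refine ⟨a, fun m hm => ?_⟩
  obtain ⟨k, rfl⟩ := Nat.exists_eq_add_of_le hm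
  have e : ε ^ (a + k) * x = ((ε / π) ^ (a + k) * π ^ k) * (x * π ^ a) := by
    rw [div_pow, pow_add π a k]
    field_simp
  rw [e]
  exact Approx_nonunits_mul V (V.mul_mem _ _ (pow_mem hu _) (pow_mem hπV _)) hw

end Aux

variable {F : Type*} [Field F] {ι : Type*} [Finite ι] {𝒪 : ι → ValuationSubring F}

theorem exists_idem (hsep : ∀ i, ∃ e : F, (∀ j, e ∈ 𝒪 j) ∧ e ∉ (𝒪 i).nonunits ∧
      ∀ j, j ≠ i → e ∈ (𝒪 j).nonunits) (i : ι) :
    ∃ ε : F, ε - 1 ∈ (𝒪 i).nonunits ∧ ∀ j, j ≠ i → ε ∈ (𝒪 j).nonunits := by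
  classical
  cases nonempty_fintype ι
  choose e he1 he2 he3 using hsep
  set S : F := ∑ j, e j with hS
  -- `S ≡ e k` at `𝒪 k`
  have hrest : ∀ k, S - e k ∈ (𝒪 k).nonunits := by
    intro k
    have h1 : S - e k = ∑ j ∈ Finset.univ.erase k, e j := by
      rw [hS, ← Finset.add_sum_erase Finset.univ e (Finset.mem_univ k), add_sub_cancel_left]
    rw [h1]
    exact Approx_nonunits_sum _ _ _ fun j hj => he3 j k (Finset.ne_of_mem_erase hj).symm
  have hek : ∀ k, (𝒪 k).valuation (e k) = 1 := fun k =>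
    le_antisymm (((𝒪 k).valuation_le_one_iff _).2 (he1 k k))
      (not_lt.1 fun h => he2 k (((𝒪 k).mem_nonunits_iff).2 h))
  have hSk : ∀ k, (𝒪 k).valuation S = 1 := by
    intro k
    have h1 : (𝒪 k).valuation S = (𝒪 k).valuation ((S - e k) + e k) := by
      congr 1; ring
    have h2 : (𝒪 k).valuation (S - e k) < (𝒪 k).valuation (e k) := by
      rw [hek k]
      exact ((𝒪 k).mem_nonunits_iff).1 (hrest k)
    rw [h1, Valuation.map_add_eq_of_lt_right _ h2, hek k]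
  have hS0 : S ≠ 0 := by
    intro h0
    have := hSk i
    rw [h0, map_zero] at this
    exact zero_ne_one this
  refine ⟨e i / S, ?_, fun j hj => ?_⟩
  · have h1 : e i / S - 1 = -((S - e i) / S) := by field_simp; ring
    rw [h1, (𝒪 i).mem_nonunits_iff, Valuation.map_neg, map_div₀, hSk i, div_one]
    exact ((𝒪 i).mem_nonunits_iff).1 (hrest i)
  · rw [(𝒪 j).mem_nonunits_iff, map_div₀, hSk j, div_one]
    exact ((𝒪 j).mem_nonunits_iff).1 (he3 i j hj)

theorem weak_approx (π : ι → F) (hdv : ∀ i, IsDV (𝒪 i) (π i))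
    (hsep : ∀ i, ∃ e : F, (∀ j, e ∈ 𝒪 j) ∧ e ∉ (𝒪 i).nonunits ∧
      ∀ j, j ≠ i → e ∈ (𝒪 j).nonunits)
    (x : ι → F) (hx : ∀ i, x i ∈ 𝒪 i) : ∃ z : F, ∀ i, z - x i ∈ (𝒪 i).nonunits := by
  classical
  cases nonempty_fintype ι
  choose ε hε1 hε2 using exists_idem hsep
  -- the exponents
  have hex : ∀ i j, ∃ a : ℕ, j ≠ i → ∀ m, a ≤ m → ε i ^ m * x i ∈ (𝒪 j).nonunits := by
    intro i j
    by_cases hj : j = i
    · exact ⟨0, fun h => absurd hj h⟩
    · obtain ⟨a, ha⟩ := Approx_pow_mul_mem (hdv j) (hε2 i j hj) (x i)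
      exact ⟨a, fun _ => ha⟩
  choose a ha using hex
  set m : ℕ := ∑ i, ∑ j, a i j with hm
  have hle : ∀ i j, a i j ≤ m := by
    intro i j
    calc a i j ≤ ∑ j', a i j' :=
          Finset.single_le_sum (f := fun j' => a i j') (fun _ _ => Nat.zero_le _) (Finset.mem_univ j)
      _ ≤ m := Finset.single_le_sum (f := fun i' => ∑ j', a i' j') (fun _ _ => Nat.zero_le _)
          (Finset.mem_univ i)
  refine ⟨∑ k, ε k ^ m * x k, fun i => ?_⟩
  have h1 : ∑ k, ε k ^ m * x k - x i =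
      x i * (ε i ^ m - 1) + ∑ k ∈ Finset.univ.erase i, ε k ^ m * x k := by
    rw [← Finset.add_sum_erase Finset.univ (fun k => ε k ^ m * x k) (Finset.mem_univ i)]
    ring
  rw [h1]
  refine Approx_nonunits_add _ (Approx_nonunits_mul _ (hx i) (Approx_pow_sub_one_mem _ (hε1 i) m))
    (Approx_nonunits_sum _ _ _ fun k hk => ?_)
  exact ha k i (Finset.ne_of_mem_erase hk).symm m (hle k i)

end Fermat.Agent.GT.Val
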