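import Fermat.Agent.GT.Val.Norm.Mult
import Fermat.Agent.GT.Val.Norm.Approx

/-! GT-VAL, layer Norm, file Res: the residues of a function `u₁`, unit at the three valuations, with
two trivial norms.

`normalize`: `v` a unit at `Oi'` and `Oz'`, `v s = r z^n`.  `r = ρ ϖ^α`, `s = σ ϖ^β`; `0 = α - β + n o_i(z) =
α - β + n o_z(z)`, so `o_i(z) = o_z(z) = d`; `κ = ρ σ⁻¹`, `z' = z / ϖ^d`.
`res_ins`: `u₁^q ≡ φ (N u₁) = κ φ(z')^n` at `ins` (`red_ins`); `q q' = 1 + n s`: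
`u₁ ≡ κ^q' (φ(z')^q' u₁^(-s))^n`.
`res_mid`: `ya, yb` lifts of `u₁` at `𝒪 0`, `𝒪 1` along `φ1`: `κ₁ z₁^n = N1 u₁ ≡ ya yb^(q-1)` at `Oi'`;
`φ1 ya ≡ u₁ ≡ b₀ V₀^n` at `𝒪 0`, `V₀` a unit at the three valuations, `v` a lift of `V₀` at `𝒪 0` along `φ1`:
`ya ≡ b₀ v^n` at `Oi'`; so `yb^(q-1) ≡ κ₁ b₀⁻¹ (z₁ / v)^n` at `Oi'`, and
`u₁^(q-1) ≡ φ1(yb)^(q-1) ≡ κ₁ b₀⁻¹ φ1(z₁ / v)^n` at `𝒪 1`. -/

set_option autoImplicit false

namespace Fermat.Agent.GT.Val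

open Fermat.Agent.GR.E Fermat.Agent.GS Fermat.Agent.GT Fermat.Agent.GT.Glue

variable {R : Type*} [CommRing R] [IsDomain R] [IsDiscreteValuationRing R]

variable {F F' : Type*} [Field F] [Field F'] [Algebra R F] [Algebra R F']

variable {ϖ : R} {q : ℕ} {𝒪 : Fin 3 → ValuationSubring F} {Oi' Oz' : ValuationSubring F'}
  {φ1 φ2 : F' →ₐ[R] F} {N1 N2 : F →* F'} {T E : F}

theorem ResA_val_unit {K : Type*} [Field K] [Algebra R K] {V : ValuationSubring K}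
    (hR : ∀ r : R, algebraMap R K r ∈ V) (ρ : Rˣ) : V.valuation (algebraMap R K (ρ : R)) = 1 := by
  have h1 : algebraMap R K (ρ : R) * algebraMap R K ((ρ⁻¹ : Rˣ) : R) = 1 := by
    rw [← map_mul, Units.mul_inv, map_one]
  rw [valuation_eq_one_iff']
  refine ⟨hR _, ?_, left_ne_zero_of_mul_eq_one h1⟩
  rw [inv_eq_of_mul_eq_one_right h1]
  exact hR _

theorem ResA_val_map {K K' : Type*} [Field K] [Field K'] {V : ValuationSubring K}
    {V' : ValuationSubring K'} {φ : K' →+* K} (hφ : ∀ y, φ y ∈ V ↔ y ∈ V') {z : K'}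
    (hz : V'.valuation z = 1) : V.valuation (φ z) = 1 := by
  rw [valuation_eq_one_iff'] at hz ⊢
  refine ⟨(hφ z).2 hz.1, ?_, (map_ne_zero φ).2 hz.2.2⟩
  rw [← map_inv₀]
  exact (hφ _).2 hz.2.1

theorem ResA_unitAll_mul {x y : F} (hx : UnitAll 𝒪 x) (hy : UnitAll 𝒪 y) : UnitAll 𝒪 (x * y) :=
  fun i => by rw [map_mul, hx i, hy i, one_mul]

theorem ResA_unitAll_pow {x : F} (hx : UnitAll 𝒪 x) (a : ℕ) : UnitAll 𝒪 (x ^ a) :=
  fun i => by rw [map_pow, hx i, one_pow]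

theorem ResA_unitAll_inv {x : F} (hx : UnitAll 𝒪 x) : UnitAll 𝒪 x⁻¹ :=
  fun i => by rw [map_inv₀, hx i, inv_one]

theorem ResA_mul_mem {K : Type*} [Field K] {V : ValuationSubring K} {x y : K}
    (hx : x ∈ V.nonunits) (hy : y ∈ V) : x * y ∈ V.nonunits := by
  rw [ValuationSubring.mem_nonunits_iff] at hx ⊢
  rw [map_mul]
  exact mul_lt_one_of_lt_of_le hx ((ValuationSubring.valuation_le_one_iff V y).2 hy)

theorem ResA_pow_sub_pow {K : Type*} [Field K] {V : ValuationSubring K} {x y : K}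
    (hx : x ∈ V) (hy : y ∈ V) (h : x - y ∈ V.nonunits) (a : ℕ) : x ^ a - y ^ a ∈ V.nonunits := by
  obtain ⟨c, hc⟩ : ∃ c ∈ V, x ^ a - y ^ a = (x - y) * c :=
    ⟨∑ i ∈ Finset.range a, x ^ i * y ^ (a - 1 - i),
      V.toSubring.sum_mem fun i _ => V.mul_mem _ _ (pow_mem hx _) (pow_mem hy _),
      by rw [mul_comm]; exact (Commute.all x y).geom_sum₂_mul a |>.symm⟩
  rw [hc.2]
  exact ResA_mul_mem h hc.1

theorem NormData.normalize (hϖ : Irreducible ϖ) (D : NormData ϖ q 𝒪 Oi' Oz' φ1 φ2 N1 N2 T E)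
    {n : ℕ} (hn : 0 < n) {v : F'} (hi : Oi'.valuation v = 1) (hz : Oz'.valuation v = 1)
    (h : ConstPow R n v) :
    ∃ (κ : Rˣ) (z : F'), Oi'.valuation z = 1 ∧ Oz'.valuation z = 1 ∧
      v = algebraMap R F' κ * z ^ n := by
  obtain ⟨r, s, z, hr, hs, hv⟩ := h
  obtain ⟨α, ρ, hρ⟩ := IsDiscreteValuationRing.eq_unit_mul_pow_irreducible hr hϖ
  obtain ⟨β, σ, hσ⟩ := IsDiscreteValuationRing.eq_unit_mul_pow_irreducible hs hϖ
  set P : F' := algebraMap R F' ϖ with hP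
  have hP0 : P ≠ 0 := D.dvi'.ne_zero
  have hr' : algebraMap R F' r = algebraMap R F' (ρ : R) * P ^ α := by
    rw [hρ, map_mul, map_pow]
  have hs' : algebraMap R F' s = algebraMap R F' (σ : R) * P ^ β := by
    rw [hσ, map_mul, map_pow]
  have hσ1 : algebraMap R F' ((σ⁻¹ : Rˣ) : R) * algebraMap R F' (σ : R) = 1 := by
    rw [← map_mul, Units.inv_mul, map_one]
  have hσ0 : algebraMap R F' (σ : R) ≠ 0 := right_ne_zero_of_mul_eq_one hσ1
  have hv0 : v ≠ 0 := (valuation_eq_one_iff'.1 hi).2.2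
  have hz0 : z ≠ 0 := by
    rintro rfl
    rw [zero_pow hn.ne', mul_zero, hs'] at hv
    exact mul_ne_zero hv0 (mul_ne_zero hσ0 (pow_ne_zero _ hP0)) hv
  obtain ⟨di, hdi⟩ := D.dvi'.exists_zpow hz0
  obtain ⟨dz, hdz⟩ := D.dvz'.exists_zpow hz0
  have key : ∀ {V : ValuationSubring F'} (_ : IsDV V P) (_ : ∀ r : R, algebraMap R F' r ∈ V)
      (_ : V.valuation v = 1) {d : ℤ} (_ : V.valuation z = V.valuation P ^ d),
      (β : ℤ) = α + n * d := by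
    intro V hV hR h1 d hd
    have := congrArg V.valuation hv
    rw [hs', hr', map_mul, map_mul, map_mul, map_mul, map_pow, map_pow, map_pow, h1,
      ResA_val_unit hR, ResA_val_unit hR, one_mul, one_mul, one_mul, hd, ← zpow_natCast,
      ← zpow_natCast, ← zpow_natCast, ← zpow_mul, ← zpow_add₀ (Ord_pos hV).ne'] at this
    have h2 := hV.zpow_injective this
    rw [h2]
    ring
  have e1 := key D.dvi' D.memRi' hi hdi
  have e2 := key D.dvz' D.memRz' hz hdz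
  have hd : di = dz := by
    have hn' : (n : ℤ) ≠ 0 := by exact_mod_cast hn.ne'
    have : (n : ℤ) * di = n * dz := by linarith
    exact mul_left_cancel₀ hn' this
  subst hd
  refine ⟨ρ * σ⁻¹, z / P ^ di, ?_, ?_, ?_⟩
  · rw [map_div₀, map_zpow₀, hdi, div_self (zpow_ne_zero _ (Ord_pos D.dvi').ne')]
  · rw [map_div₀, map_zpow₀, hdz, div_self (zpow_ne_zero _ (Ord_pos D.dvz').ne')]
  · have hne : algebraMap R F' (σ : R) * P ^ β ≠ 0 := mul_ne_zero hσ0 (pow_ne_zero _ hP0)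
    apply mul_right_cancel₀ hne
    rw [← hs', hv, hr', hs', Units.val_mul, map_mul, div_pow]
    have hPn : (P ^ di) ^ n ≠ 0 := pow_ne_zero _ (zpow_ne_zero _ hP0)
    have hβ : P ^ β = P ^ α * (P ^ di) ^ n := by
      rw [← zpow_natCast P β, e1, zpow_add₀ hP0, zpow_natCast, mul_comm (n : ℤ), zpow_mul,
        zpow_natCast]
    rw [hβ]
    have h5 : z ^ n / (P ^ di) ^ n * (P ^ di) ^ n = z ^ n := div_mul_cancel₀ _ hPn
    calc algebraMap R F' (ρ : R) * P ^ α * z ^ n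
        = algebraMap R F' (ρ : R) * 1 * P ^ α * z ^ n := by ring
      _ = algebraMap R F' (ρ : R) * (algebraMap R F' ((σ⁻¹ : Rˣ) : R) * algebraMap R F' (σ : R)) *
            P ^ α * (z ^ n / (P ^ di) ^ n * (P ^ di) ^ n) := by rw [hσ1, h5]
      _ = _ := by ring

/-- units of `Oi' ∩ Oz'` map to units at the three valuations. -/
theorem NormData.unitAll_map (D : NormData ϖ q 𝒪 Oi' Oz' φ1 φ2 N1 N2 T E) {z : F'}
    (hi : Oi'.valuation z = 1) (hz : Oz'.valuation z = 1) :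
    UnitAll 𝒪 (φ1 z) ∧ UnitAll 𝒪 (φ2 z) := by
  constructor
  · intro i
    fin_cases i
    · exact ResA_val_map (φ := (φ1 : F' →+* F)) D.comap1_0 hi
    · exact ResA_val_map (φ := (φ1 : F' →+* F)) D.comap1_1 hi
    · exact ResA_val_map (φ := (φ1 : F' →+* F)) D.comap1_2 hz
  · intro i
    fin_cases i
    · exact ResA_val_map (φ := (φ2 : F' →+* F)) D.comap2_0 hi
    · exact ResA_val_map (φ := (φ2 : F' →+* F)) D.comap2_1 hz
    · exact ResA_val_map (φ := (φ2 : F' →+* F)) D.comap2_2 hz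

/-- the common part of `res_zero` and `res_inf`. -/
theorem ResA_res_ins {n : ℕ} (hnq : n.Coprime q) (hq : 2 ≤ q) (i : Fin 3) (φ : F' →ₐ[R] F)
    (Nm : F →* F') (hR : ∀ r : R, algebraMap R F r ∈ 𝒪 i)
    (hred : ∀ a ∈ 𝒪 i, φ (Nm a) - a ^ q ∈ (𝒪 i).nonunits) {u₁ : F} (hu : UnitAll 𝒪 u₁)
    {κ : Rˣ} {z : F'} (hz : UnitAll 𝒪 (φ z)) (hN : Nm u₁ = algebraMap R F' κ * z ^ n) :
    ∃ (b : Rˣ) (V : F), UnitAll 𝒪 V ∧ u₁ - algebraMap R F b * V ^ n ∈ (𝒪 i).nonunits := by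
  -- `q q' = 1 + n s`
  obtain ⟨q', s, hqs⟩ : ∃ q' s : ℕ, q * q' = 1 + n * s := by
    rcases Nat.eq_zero_or_pos n with rfl | hn
    · rw [Nat.coprime_zero_left] at hnq
      omega
    rcases Nat.lt_or_ge 1 n with h1 | h1
    · obtain ⟨m, -, hm⟩ := Nat.exists_mul_mod_eq_one_of_coprime hnq.symm h1
      refine ⟨m, q * m / n, ?_⟩
      have := Nat.div_add_mod (q * m) n
      rw [hm] at this
      omega
    · have : n = 1 := by omega
      subst this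
      exact ⟨1, q - 1, by omega⟩
  have hu0 : u₁ ≠ 0 := (valuation_eq_one_iff'.1 (hu i)).2.2
  have hum : u₁ ∈ 𝒪 i := (valuation_eq_one_iff'.1 (hu i)).1
  have hum' : u₁⁻¹ ∈ 𝒪 i := (valuation_eq_one_iff'.1 (hu i)).2.1
  have hzm : φ z ∈ 𝒪 i := (valuation_eq_one_iff'.1 (hz i)).1
  have h1 := hred u₁ hum
  rw [hN, map_mul, map_pow, AlgHom.commutes] at h1
  have h2 := ResA_pow_sub_pow ((𝒪 i).mul_mem _ _ (hR _) (pow_mem hzm _)) (pow_mem hum _) h1 q'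
  have h3 := ResA_mul_mem h2 (pow_mem hum' (n * s))
  refine ⟨κ ^ q', φ z ^ q' * u₁⁻¹ ^ s,
    ResA_unitAll_mul (ResA_unitAll_pow hz _) (ResA_unitAll_pow (ResA_unitAll_inv hu) _), ?_⟩
  have e : u₁ - algebraMap R F ((κ ^ q' : Rˣ) : R) * (φ z ^ q' * u₁⁻¹ ^ s) ^ n =
      -(((algebraMap R F (κ : R) * φ z ^ n) ^ q' - (u₁ ^ q) ^ q') * u₁⁻¹ ^ (n * s)) := by
    have e1 : (u₁ ^ q) ^ q' * u₁⁻¹ ^ (n * s) = u₁ := by
      rw [← pow_mul, hqs, pow_add, pow_one, mul_assoc, ← mul_pow, mul_inv_cancel₀ hu0, one_pow,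
        mul_one]
    rw [sub_mul, e1, Units.val_pow_eq_pow_val, map_pow]
    ring
  rw [e]
  rw [ValuationSubring.mem_nonunits_iff] at h3 ⊢
  rwa [Valuation.map_neg]

theorem NormData.res_zero (hϖ : Irreducible ϖ) (D : NormData ϖ q 𝒪 Oi' Oz' φ1 φ2 N1 N2 T E)
    {n : ℕ} (hn : 0 < n) (hnq : n.Coprime q) {u₁ : F} (hu : UnitAll 𝒪 u₁)
    (h1 : ConstPow R n (N1 u₁)) :
    ∃ (b : Rˣ) (V : F), UnitAll 𝒪 V ∧ u₁ - algebraMap R F b * V ^ n ∈ (𝒪 2).nonunits := by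
  obtain ⟨κ, z, hzi, hzz, hN⟩ := D.normalize hϖ hn (D.unit_N1 hu).1 (D.unit_N1 hu).2 h1
  exact ResA_res_ins hnq D.two_le 2 φ1 N1 (D.memR 2) D.nv1.red_ins hu (D.unitAll_map hzi hzz).1 hN

theorem NormData.res_inf (hϖ : Irreducible ϖ) (D : NormData ϖ q 𝒪 Oi' Oz' φ1 φ2 N1 N2 T E)
    {n : ℕ} (hn : 0 < n) (hnq : n.Coprime q) {u₁ : F} (hu : UnitAll 𝒪 u₁)
    (h2 : ConstPow R n (N2 u₁)) :
    ∃ (b : Rˣ) (V : F), UnitAll 𝒪 V ∧ u₁ - algebraMap R F b * V ^ n ∈ (𝒪 0).nonunits := by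
  obtain ⟨κ, z, hzi, hzz, hN⟩ := D.normalize hϖ hn (D.unit_N2 hu).1 (D.unit_N2 hu).2 h2
  exact ResA_res_ins hnq D.two_le 0 φ2 N2 (D.memR 0) D.nv2.red_ins hu (D.unitAll_map hzi hzz).2 hN

section ResMid

variable {K K' : Type*} [Field K] [Field K'] {W : ValuationSubring K} {W' : ValuationSubring K'}

theorem Res_mid_add {x y : K} (hx : x ∈ W.nonunits) (hy : y ∈ W.nonunits) :
    x + y ∈ W.nonunits := by
  rw [ValuationSubring.mem_nonunits_iff] at *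
  exact Valuation.map_add_lt _ hx hy

theorem Res_mid_neg {x : K} (hx : x ∈ W.nonunits) : -x ∈ W.nonunits := by
  rw [ValuationSubring.mem_nonunits_iff] at *
  rwa [Valuation.map_neg]

theorem Res_mid_sub {x y : K} (hx : x ∈ W.nonunits) (hy : y ∈ W.nonunits) :
    x - y ∈ W.nonunits := by
  rw [sub_eq_add_neg]
  exact Res_mid_add hx (Res_mid_neg hy)

theorem Res_mid_mul {x y : K} (hx : x ∈ W.nonunits) (hy : y ∈ W) : x * y ∈ W.nonunits := by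
  rw [ValuationSubring.mem_nonunits_iff] at *
  rw [map_mul]
  exact mul_lt_one_of_lt_of_le hx ((W.valuation_le_one_iff y).mpr hy)

theorem Res_mid_mem_of_unit {x : K} (hx : W.valuation x = 1) : x ∈ W :=
  (W.valuation_le_one_iff x).1 hx.le

/-- congruent elements have congruent powers. -/
theorem Res_mid_pow {x y : K} (hx : x ∈ W) (hy : y ∈ W) (h : x - y ∈ W.nonunits) (n : ℕ) :
    x ^ n - y ^ n ∈ W.nonunits := by
  rw [← Commute.geom_sum₂_mul (Commute.all x y) n, mul_comm]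
  exact Res_mid_mul h (sum_mem fun i _ => mul_mem (pow_mem hx _) (pow_mem hy _))

/-- units correspond under a restriction of valuation rings. -/
theorem Res_mid_unit_iff {φ : K' →+* K} (hφ : ∀ y, φ y ∈ W ↔ y ∈ W') (y : K') :
    W.valuation (φ y) = 1 ↔ W'.valuation y = 1 := by
  rw [valuation_eq_one_iff', valuation_eq_one_iff', ← map_inv₀, hφ, hφ, map_ne_zero]

/-- nonunits correspond under a restriction of valuation rings. -/
theorem Res_mid_nonunits_iff {φ : K' →+* K} (hφ : ∀ y, φ y ∈ W ↔ y ∈ W') (y : K') :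
    φ y ∈ W.nonunits ↔ y ∈ W'.nonunits := by
  have h1 := Res_mid_unit_iff hφ y
  rw [valuation_eq_one_iff, valuation_eq_one_iff, hφ] at h1
  constructor
  · intro h
    by_contra h'
    have hy : y ∈ W' := (hφ y).1 ((W.valuation_le_one_iff _).1
      (le_of_lt ((ValuationSubring.mem_nonunits_iff W).1 h)))
    exact (h1.2 ⟨hy, h'⟩).2 h
  · intro h
    by_contra h'
    have hy : y ∈ W' := (W'.valuation_le_one_iff _).1
      (le_of_lt ((ValuationSubring.mem_nonunits_iff W').1 h))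
    exact (h1.1 ⟨hy, h'⟩).2 h

end ResMid

theorem NormData.res_mid (hϖ : Irreducible ϖ) (D : NormData ϖ q 𝒪 Oi' Oz' φ1 φ2 N1 N2 T E)
    {n : ℕ} (hn : 0 < n) (hnq : n.Coprime q) {u₁ : F} (hu : UnitAll 𝒪 u₁)
    (h1 : ConstPow R n (N1 u₁)) (h2 : ConstPow R n (N2 u₁)) :
    ∃ (b : Rˣ) (V : F), UnitAll 𝒪 V ∧
      u₁ ^ (q - 1) - algebraMap R F b * V ^ n ∈ (𝒪 1).nonunits := by
  have humem : ∀ i, u₁ ∈ 𝒪 i := fun i => Res_mid_mem_of_unit (hu i)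
  have c0 : ∀ y, (φ1 : F' →+* F) y ∈ 𝒪 0 ↔ y ∈ Oi' := D.comap1_0
  have c1 : ∀ y, (φ1 : F' →+* F) y ∈ 𝒪 1 ↔ y ∈ Oi' := D.comap1_1
  -- lifts of `u₁`
  obtain ⟨ya, hyaO, hya⟩ := D.lift1_0 u₁ humem
  obtain ⟨yb, hybO, hyb⟩ := D.lift1_1 u₁ humem
  have hred := D.nv1.red_ab u₁ ya yb hyaO hybO hya hyb
  -- the norm
  obtain ⟨hN1i, hN1z⟩ := D.unit_N1 hu
  obtain ⟨κ₁, z₁, hz₁i, hz₁z, hN1⟩ := D.normalize hϖ hn hN1i hN1z h1
  -- the residue at `𝒪 0`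
  obtain ⟨b₀, V₀, hV₀, hb₀⟩ := D.res_inf hϖ hn hnq hu h2
  have hV₀mem : ∀ i, V₀ ∈ 𝒪 i := fun i => Res_mid_mem_of_unit (hV₀ i)
  obtain ⟨v, hvO, hv⟩ := D.lift1_0 V₀ hV₀mem
  have hφv : (𝒪 0).valuation (φ1 v) = 1 := by
    refine valuation_eq_one_of_sub_mem (y := V₀) ?_ (hV₀ 0)
    have := Res_mid_neg hv
    rwa [neg_sub] at this
  have hvi : Oi'.valuation v = 1 := (Res_mid_unit_iff c0 v).1 hφv
  have hv0 : v ≠ 0 := by
    rintro rfl
    rw [map_zero] at hvi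
    exact zero_ne_one hvi
  have hvinv : v⁻¹ ∈ Oi' := (valuation_eq_one_iff'.1 hvi).2.1
  -- `ya ≡ b₀ v ^ n` at `Oi'`
  have h8 : ya - algebraMap R F' b₀ * v ^ n ∈ Oi'.nonunits := by
    rw [← Res_mid_nonunits_iff c0]
    have e : (φ1 : F' →+* F) (ya - algebraMap R F' b₀ * v ^ n) =
        -(u₁ - φ1 ya) + (u₁ - algebraMap R F b₀ * V₀ ^ n) +
          (V₀ ^ n - φ1 v ^ n) * algebraMap R F b₀ := by
      simp only [RingHom.coe_coe, map_sub, map_mul, map_pow, AlgHom.commutes]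
      ring
    rw [e]
    exact Res_mid_add (Res_mid_add (Res_mid_neg hya) hb₀)
      (Res_mid_mul (Res_mid_pow (hV₀mem 0) (Res_mid_mem_of_unit hφv) hv n) (D.memR 0 _))
  -- `yb ^ (q - 1) ≡ κ₁ b₀⁻¹ (z₁ / v) ^ n` at `Oi'`
  have hunit : algebraMap R F' ((b₀⁻¹ : Rˣ) : R) * algebraMap R F' (b₀ : R) = 1 := by
    rw [← map_mul, Units.inv_mul, map_one]
  have h9 : algebraMap R F' ((κ₁ * b₀⁻¹ : Rˣ) : R) * (z₁ * v⁻¹) ^ n - yb ^ (q - 1) ∈
      Oi'.nonunits := by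
    have e : algebraMap R F' ((κ₁ * b₀⁻¹ : Rˣ) : R) * (z₁ * v⁻¹) ^ n - yb ^ (q - 1) =
        ((N1 u₁ - ya * yb ^ (q - 1)) + (ya - algebraMap R F' b₀ * v ^ n) * yb ^ (q - 1)) *
          (algebraMap R F' ((b₀⁻¹ : Rˣ) : R) * v⁻¹ ^ n) := by
      have hvn : v ^ n * v⁻¹ ^ n = 1 := by
        rw [← mul_pow, mul_inv_cancel₀ hv0, one_pow]
      rw [hN1, Units.val_mul, map_mul, mul_pow]
      have : yb ^ (q - 1) = (algebraMap R F' ((b₀⁻¹ : Rˣ) : R) * algebraMap R F' (b₀ : R)) *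
          (v ^ n * v⁻¹ ^ n) * yb ^ (q - 1) := by
        rw [hunit, hvn, one_mul, one_mul]
      conv_lhs => rw [this]
      ring
    rw [e]
    exact Res_mid_mul (Res_mid_add hred (Res_mid_mul h8 (pow_mem hybO _)))
      (mul_mem (D.memRi' _) (pow_mem hvinv _))
  -- transport to `𝒪 1`
  have h10 := D.nv1.map_b _ h9
  rw [map_sub, map_mul, map_pow, map_pow, AlgHom.commutes] at h10
  have h11 : u₁ ^ (q - 1) - φ1 yb ^ (q - 1) ∈ (𝒪 1).nonunits :=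
    Res_mid_pow (humem 1) ((D.comap1_1 yb).2 hybO) hyb _
  have hW : (𝒪 1).valuation (φ1 (z₁ * v⁻¹)) = 1 := by
    refine (Res_mid_unit_iff c1 _).2 ?_
    rw [map_mul, map_inv₀, hz₁i, hvi, inv_one, one_mul]
  -- weak approximation
  obtain ⟨V, hV⟩ := weak_approx (𝒪 := 𝒪) ![algebraMap R F ϖ, T, algebraMap R F ϖ]
    (by
      intro i
      fin_cases i
      · exact D.dv0
      · exact D.dv1
      · exact D.dv2) D.sep ![1, φ1 (z₁ * v⁻¹), 1]
    (by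
      intro i
      fin_cases i
      · exact one_mem _
      · exact Res_mid_mem_of_unit hW
      · exact one_mem _)
  have hV0 : V - 1 ∈ (𝒪 0).nonunits := hV 0
  have hV1 : V - φ1 (z₁ * v⁻¹) ∈ (𝒪 1).nonunits := hV 1
  have hV2 : V - 1 ∈ (𝒪 2).nonunits := hV 2
  have hVunit : UnitAll 𝒪 V := by
    intro i
    fin_cases i
    · exact valuation_eq_one_of_sub_mem hV0 (map_one _)
    · exact valuation_eq_one_of_sub_mem hV1 hW
    · exact valuation_eq_one_of_sub_mem hV2 (map_one _)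
  refine ⟨κ₁ * b₀⁻¹, V, hVunit, ?_⟩
  have e : u₁ ^ (q - 1) - algebraMap R F ((κ₁ * b₀⁻¹ : Rˣ) : R) * V ^ n =
      (u₁ ^ (q - 1) - φ1 yb ^ (q - 1)) -
        (algebraMap R F ((κ₁ * b₀⁻¹ : Rˣ) : R) * φ1 (z₁ * v⁻¹) ^ n - φ1 yb ^ (q - 1)) -
        (V ^ n - φ1 (z₁ * v⁻¹) ^ n) * algebraMap R F ((κ₁ * b₀⁻¹ : Rˣ) : R) := by
    ring
  rw [e]
  exact Res_mid_sub (Res_mid_sub h11 h10)
    (Res_mid_mul (Res_mid_pow (Res_mid_mem_of_unit (hVunit 1)) (Res_mid_mem_of_unit hW) hV1 n)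
      (D.memR 1 _))

/-! ### helpers for part C: congruences modulo the maximal ideal of a valuation subring -/

theorem Res_mul_mem_nonunits {K : Type*} [Field K] {V : ValuationSubring K} {a y : K}
    (ha : a ∈ V) (hy : y ∈ V.nonunits) : a * y ∈ V.nonunits := by
  rw [ValuationSubring.mem_nonunits_iff] at hy ⊢
  rw [map_mul]
  calc V.valuation a * V.valuation y ≤ 1 * V.valuation y :=
        mul_le_mul_left ((V.valuation_le_one_iff a).2 ha) _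
    _ = V.valuation y := one_mul _
    _ < 1 := hy

theorem Res_mem_of_val {K : Type*} [Field K] {V : ValuationSubring K} {x : K}
    (h : V.valuation x = 1) : x ∈ V := (V.valuation_le_one_iff x).1 h.le

theorem Res_cong_mul {K : Type*} [Field K] {V : ValuationSubring K} {a b c d : K}
    (hab : a - b ∈ V.nonunits) (hcd : c - d ∈ V.nonunits) (hb : b ∈ V) (hc : c ∈ V) :
    a * c - b * d ∈ V.nonunits := by
  have : a * c - b * d = c * (a - b) + b * (c - d) := by ring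
  rw [this]
  exact V.nonunits.add_mem (Res_mul_mem_nonunits hc hab) (Res_mul_mem_nonunits hb hcd)

theorem Res_mem_of_cong {K : Type*} [Field K] {V : ValuationSubring K} {a b : K}
    (hab : a - b ∈ V.nonunits) (hb : b ∈ V) : a ∈ V := by
  have : a = (a - b) + b := by ring
  rw [this]
  exact V.add_mem _ _ (V.nonunits_subset hab) hb

theorem Res_cong_pow {K : Type*} [Field K] {V : ValuationSubring K} {a b : K}
    (hab : a - b ∈ V.nonunits) (hb : b ∈ V) (k : ℕ) : a ^ k - b ^ k ∈ V.nonunits := by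
  induction k with
  | zero => simp
  | succ k ih =>
    rw [pow_succ, pow_succ]
    exact Res_cong_mul ih hab (V.pow_mem hb k) (Res_mem_of_cong hab hb)

/-- the local step: `w ≡ β W^n`, `W` a unit, `z ≡ W⁻¹` ⟹ `w z^n ≡ β`. -/
theorem Res_step {K : Type*} [Field K] {V : ValuationSubring K} {w β W z : K} {n : ℕ}
    (hβ : β ∈ V) (hW : V.valuation W = 1) (hw : w - β * W ^ n ∈ V.nonunits)
    (hz : z - W⁻¹ ∈ V.nonunits) : w * z ^ n - β ∈ V.nonunits := by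
  have hW0 : W ≠ 0 := by
    rintro rfl
    simp at hW
  have hWi : V.valuation W⁻¹ = 1 := by rw [map_inv₀, hW, inv_one]
  have hWm : W ∈ V := Res_mem_of_val hW
  have hWim : W⁻¹ ∈ V := Res_mem_of_val hWi
  have h1 : z ^ n - W⁻¹ ^ n ∈ V.nonunits := Res_cong_pow hz hWim n
  have h2 := Res_cong_mul hw h1 (V.mul_mem _ _ hβ (V.pow_mem hWm n))
    (V.pow_mem (Res_mem_of_cong hz hWim) n)
  have h3 : β * W ^ n * W⁻¹ ^ n = β := by
    rw [mul_assoc, ← mul_pow, mul_inv_cancel₀ hW0, one_pow, mul_one]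
  rwa [h3] at h2

/-- `u₁^(q-1) z^n ≡ b i` at `𝒪 i` (weak approximation of the `V i⁻¹`). -/
theorem NormData.exists_res (hϖ : Irreducible ϖ) (D : NormData ϖ q 𝒪 Oi' Oz' φ1 φ2 N1 N2 T E)
    {n : ℕ} (hn : 0 < n) (hnq : n.Coprime q) {u₁ : F} (hu : UnitAll 𝒪 u₁)
    (h1 : ConstPow R n (N1 u₁)) (h2 : ConstPow R n (N2 u₁)) :
    ∃ (b : Fin 3 → Rˣ) (z : F), z ≠ 0 ∧
      ∀ i, u₁ ^ (q - 1) * z ^ n - algebraMap R F (b i) ∈ (𝒪 i).nonunits := by
  obtain ⟨b2, V2, hV2, h2'⟩ := D.res_zero hϖ hn hnq hu h1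
  obtain ⟨b0, V0, hV0, h0'⟩ := D.res_inf hϖ hn hnq hu h2
  obtain ⟨b1, V1, hV1, h1'⟩ := D.res_mid hϖ hn hnq hu h1 h2
  -- the data at the three valuations
  let b : Fin 3 → Rˣ := ![b0 ^ (q - 1), b1, b2 ^ (q - 1)]
  let W : Fin 3 → F := ![V0 ^ (q - 1), V1, V2 ^ (q - 1)]
  have hWu : ∀ i, (𝒪 i).valuation (W i) = 1 := by
    intro i
    fin_cases i
    · show (𝒪 0).valuation (V0 ^ (q - 1)) = 1
      rw [map_pow, hV0 0, one_pow]
    · exact hV1 1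
    · show (𝒪 2).valuation (V2 ^ (q - 1)) = 1
      rw [map_pow, hV2 2, one_pow]
  have hpow : ∀ (i : Fin 3) (β : Rˣ) (V : F), (𝒪 i).valuation V = 1 →
      u₁ - algebraMap R F β * V ^ n ∈ (𝒪 i).nonunits →
      u₁ ^ (q - 1) - algebraMap R F ((β ^ (q - 1) : Rˣ) : R) * (V ^ (q - 1)) ^ n ∈
        (𝒪 i).nonunits := by
    intro i β V hV h
    have h3 := Res_cong_pow h ((𝒪 i).mul_mem _ _ (D.memR i β)
      ((𝒪 i).pow_mem (Res_mem_of_val hV) n)) (q - 1)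
    have h4 : (algebraMap R F β * V ^ n) ^ (q - 1) =
        algebraMap R F ((β ^ (q - 1) : Rˣ) : R) * (V ^ (q - 1)) ^ n := by
      rw [mul_pow, Units.val_pow_eq_pow_val, map_pow, ← pow_mul, ← pow_mul, mul_comm n]
    rwa [h4] at h3
  have hcong : ∀ i, u₁ ^ (q - 1) - algebraMap R F (b i) * W i ^ n ∈ (𝒪 i).nonunits := by
    intro i
    fin_cases i
    · exact hpow 0 b0 V0 (hV0 0) h0'
    · exact h1'
    · exact hpow 2 b2 V2 (hV2 2) h2'
  let π : Fin 3 → F := ![algebraMap R F ϖ, T, algebraMap R F ϖ]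
  have hdv : ∀ i, IsDV (𝒪 i) (π i) := by
    intro i
    fin_cases i
    · exact D.dv0
    · exact D.dv1
    · exact D.dv2
  obtain ⟨z, hz⟩ := weak_approx π hdv D.sep (fun i => (W i)⁻¹) (fun i => by
    apply Res_mem_of_val
    rw [map_inv₀, hWu i, inv_one])
  refine ⟨b, z, ?_, fun i => Res_step (D.memR i _) (hWu i) (hcong i) (hz i)⟩
  rintro rfl
  have h5 := hz 0
  rw [zero_sub, ValuationSubring.mem_nonunits_iff, Valuation.map_neg, map_inv₀, hWu 0, inv_one] at h5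
  exact lt_irrefl _ h5

/-- EXPORT (S4). -/
theorem NormData.main (hϖ : Irreducible ϖ) (D : NormData ϖ q 𝒪 Oi' Oz' φ1 φ2 N1 N2 T E)
    {n : ℕ} (hn : 0 < n) (hnq : n.Coprime q) {u : F} (hu : u ≠ 0)
    (h1 : ConstPow R n (N1 u)) (h2 : ConstPow R n (N2 u)) :
    ∃ (m : ℤ) (b : Fin 3 → Rˣ) (z : F), z ≠ 0 ∧
      ∀ i, algebraMap R F ϖ ^ m * u ^ ((q + 1) * (q - 1)) * z ^ n - algebraMap R F (b i) ∈
        (𝒪 i).nonunits := by
  obtain ⟨m, z0, u₁, hz0, hu₁, hdec, hc1, hc2⟩ := D.exists_unitAll hϖ hn hu h1 h2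
  obtain ⟨b, z1, hz1, hres⟩ := D.exists_res hϖ hn hnq hu₁ hc1 hc2
  have hP0 : algebraMap R F ϖ ≠ 0 := D.dv0.ne_zero
  refine ⟨-(m * ((q - 1 : ℕ) : ℤ)), b, z1 / z0 ^ (q - 1),
    div_ne_zero hz1 (pow_ne_zero _ hz0), fun i => ?_⟩
  have key : algebraMap R F ϖ ^ (-(m * ((q - 1 : ℕ) : ℤ))) * u ^ ((q + 1) * (q - 1)) *
      (z1 / z0 ^ (q - 1)) ^ n = u₁ ^ (q - 1) * z1 ^ n := by
    rw [pow_mul, hdec, mul_pow, mul_pow, div_pow, zpow_neg, zpow_mul, zpow_natCast,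
      ← pow_mul, ← pow_mul, mul_comm n (q - 1)]
    have h3 : (algebraMap R F ϖ ^ m) ^ (q - 1) ≠ 0 := pow_ne_zero _ (zpow_ne_zero _ hP0)
    have h4 : z0 ^ ((q - 1) * n) ≠ 0 := pow_ne_zero _ hz0
    field_simp
  rw [key]
  exact hres i

end Fermat.Agent.GT.Val
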