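import Fermat.Agent.GT.Glue.GeoDefs
import Fermat.Agent.GT.Val.Ind.Defs

/-!
# GT-VAL, layer Norm (abstract): vertical multiplicities and residues of a function with two trivial
norms.  Definitions.

`F` = level `q² N₁`, `F'` = level `q N₁`; `𝒪 0 = 𝒪_∞`, `𝒪 1 = 𝒪_mid`, `𝒪 2 = 𝒪_0`; `Oi' = 𝒪'_∞`, `Oz' = 𝒪'_0`;
`(φ1, N1)` = (inclusion, norm), `(φ2, N2)` = (`t ↦ t^q`, norm along it).
Normalised valuations: `v(ϖ) = (1, q-1, 1)`, `v(T) = (0, 1, 0)`, `v(E) = (0, 0, ≥ 1)`.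
We write "`x` is a unit of `V`" as `V.valuation x = 1`.
-/

set_option autoImplicit false

namespace Fermat.Agent.GT.Val

open Fermat.Agent.GR.E Fermat.Agent.GS Fermat.Agent.GT Fermat.Agent.GT.Glue

variable {R : Type*} [CommRing R] {F F' : Type*} [Field F] [Field F'] [Algebra R F] [Algebra R F']

/-- `V` is a discrete valuation ring with uniformizer `π`. -/
structure IsDV (V : ValuationSubring F) (π : F) : Prop where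
  mem : π ∈ V.nonunits
  ne_zero : π ≠ 0
  unif : ∀ x ∈ V.nonunits, x / π ∈ V
  disc : ∀ x : F, x ≠ 0 → ∃ m : ℕ, x / π ^ m ∉ V

/-- The input of the layer. -/
structure NormData (ϖ : R) (q : ℕ) (𝒪 : Fin 3 → ValuationSubring F)
    (Oi' Oz' : ValuationSubring F') (φ1 φ2 : F' →ₐ[R] F) (N1 N2 : F →* F') (T E : F) : Prop where
  two_le : 2 ≤ q
  dv0 : IsDV (𝒪 0) (algebraMap R F ϖ)
  dv1 : IsDV (𝒪 1) T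
  dv2 : IsDV (𝒪 2) (algebraMap R F ϖ)
  dvi' : IsDV Oi' (algebraMap R F' ϖ)
  dvz' : IsDV Oz' (algebraMap R F' ϖ)
  memR : ∀ i, ∀ r : R, algebraMap R F r ∈ 𝒪 i
  memRi' : ∀ r : R, algebraMap R F' r ∈ Oi'
  memRz' : ∀ r : R, algebraMap R F' r ∈ Oz'
  T_unit0 : (𝒪 0).valuation T = 1
  T_unit2 : (𝒪 2).valuation T = 1
  T_ram : (𝒪 1).valuation T ^ (q - 1) = (𝒪 1).valuation (algebraMap R F ϖ)
  E_unit0 : (𝒪 0).valuation E = 1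
  E_unit1 : (𝒪 1).valuation E = 1
  E_mem2 : E ∈ (𝒪 2).nonunits
  /-- restrictions of the three valuations along `φ1` and `φ2` -/
  comap1_0 : ∀ y, φ1 y ∈ 𝒪 0 ↔ y ∈ Oi'
  comap1_1 : ∀ y, φ1 y ∈ 𝒪 1 ↔ y ∈ Oi'
  comap1_2 : ∀ y, φ1 y ∈ 𝒪 2 ↔ y ∈ Oz'
  comap2_0 : ∀ y, φ2 y ∈ 𝒪 0 ↔ y ∈ Oi'
  comap2_1 : ∀ y, φ2 y ∈ 𝒪 1 ↔ y ∈ Oz'
  comap2_2 : ∀ y, φ2 y ∈ 𝒪 2 ↔ y ∈ Oz'
  nv1 : NormVal q φ1 N1 (𝒪 2) (𝒪 0) (𝒪 1) Oz' Oi'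
  nv2 : NormVal q φ2 N2 (𝒪 0) (𝒪 2) (𝒪 1) Oi' Oz'
  const1 : ∀ r : R, N1 (algebraMap R F r) = algebraMap R F' r ^ q
  const2 : ∀ r : R, N2 (algebraMap R F r) = algebraMap R F' r ^ q
  /-- `f = 1` -/
  lift1_0 : ∀ x, (∀ i, x ∈ 𝒪 i) → ∃ y ∈ Oi', x - φ1 y ∈ (𝒪 0).nonunits
  lift1_1 : ∀ x, (∀ i, x ∈ 𝒪 i) → ∃ y ∈ Oi', x - φ1 y ∈ (𝒪 1).nonunits
  lift2_2 : ∀ x, (∀ i, x ∈ 𝒪 i) → ∃ y ∈ Oz', x - φ2 y ∈ (𝒪 2).nonunits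
  lift2_1 : ∀ x, (∀ i, x ∈ 𝒪 i) → ∃ y ∈ Oz', x - φ2 y ∈ (𝒪 1).nonunits
  /-- separation of the three valuations -/
  sep : ∀ i, ∃ e : F, (∀ j, e ∈ 𝒪 j) ∧ e ∉ (𝒪 i).nonunits ∧ ∀ j, j ≠ i → e ∈ (𝒪 j).nonunits

/-- `x` is a unit at the three valuations. -/
def UnitAll (𝒪 : Fin 3 → ValuationSubring F) (x : F) : Prop := ∀ i, (𝒪 i).valuation x = 1

end Fermat.Agent.GT.Val
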