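import Fermat.Agent.GT.Val.Norm.Decomp

/-! GT-VAL, layer Norm, file Count: the valuations of the norms of `u'`, `T`, `P`.

(U) a unit at `ins` has a norm which is a unit at `ins'` (`red_ins`: `φ (Nm a) ≡ a^q`, and `comap`).
(U') `x` a unit at the three valuations ⟹ `Nm x` is a unit at `ab'` (`lift`s `ya`, `yb` are units,
`red_ab`: `Nm x ≡ ya yb^(q-1)`).  More generally `x ∈ ⋂ 𝒪 i`, unit at `a` and `b`.
(M) `x ∈ ⋂ 𝒪 i`, `x ∈ 𝔪_a` or `x ∈ 𝔪_b` ⟹ `Nm x ∈ 𝔪(ab')` (`red_ab` with `ya = 0` resp. `yb = 0`, `q - 1 ≥ 1`).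
COUNTING: `ϖ = X T^(q-1) P`, `Nm ϖ = ϖ^q`.  For `N1` at `Oi'`: `q = o(N1 X) + (q-1) o(N1 T) + 0` with
`o(N1 X), o(N1 T) ≥ 1`, so both are `1`.  At `Oz'`: `N1 X`, `N1 T` units, so `o(N1 P) = q`.
For `N2` at `Oi'`: `N2 T`, `N2 P` units.  At `Oz'`: `N2 X` unit, `q = (q-1) o(N2 T) + o(N2 P)`, both `≥ 1`,
so both are `1`. -/

set_option autoImplicit false

namespace Fermat.Agent.GT.Val

open Fermat.Agent.GR.E Fermat.Agent.GS Fermat.Agent.GT Fermat.Agent.GT.Glue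

variable {R : Type*} [CommRing R] [IsDomain R] [IsDiscreteValuationRing R]
variable {F F' : Type*} [Field F] [Field F'] [Algebra R F] [Algebra R F']
variable {ϖ : R} {q : ℕ} {𝒪 : Fin 3 → ValuationSubring F} {Oi' Oz' : ValuationSubring F'}
  {φ1 φ2 : F' →ₐ[R] F} {N1 N2 : F →* F'} {T E : F}

/-! ### helper lemmas (part B) -/

section CountHelpers

variable {φ : F' →ₐ[R] F} {Nm : F →* F'} {Oins Oa Ob : ValuationSubring F}
  {Oins' Oab' : ValuationSubring F'}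

omit [IsDomain R] [IsDiscreteValuationRing R] in
theorem Count_forall3 {p : Fin 3 → Prop} (h0 : p 0) (h1 : p 1) (h2 : p 2) : ∀ i, p i := by
  intro i
  fin_cases i
  · exact h0
  · exact h1
  · exact h2

omit [IsDomain R] [IsDiscreteValuationRing R] [Algebra R F] in
theorem Count_nonunits_neg {V : ValuationSubring F} {x : F} (hx : x ∈ V.nonunits) :
    -x ∈ V.nonunits := by
  rw [ValuationSubring.mem_nonunits_iff] at *
  rwa [Valuation.map_neg]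

omit [IsDomain R] [IsDiscreteValuationRing R] in
/-- a unit upstairs comes from a unit downstairs. -/
theorem Count_unit_of_map {V : ValuationSubring F} {V' : ValuationSubring F'}
    (hc : ∀ y, φ y ∈ V ↔ y ∈ V') {y : F'} (h : V.valuation (φ y) = 1) : V'.valuation y = 1 := by
  rw [valuation_eq_one_iff'] at h ⊢
  obtain ⟨h1, h2, h3⟩ := h
  refine ⟨(hc y).1 h1, ?_, fun h0 => h3 (by rw [h0, map_zero])⟩
  rw [← hc, map_inv₀]
  exact h2

omit [IsDomain R] [IsDiscreteValuationRing R] in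
/-- (U) -/
theorem Count_unit_ins (hV : NormVal q φ Nm Oins Oa Ob Oins' Oab')
    (hc : ∀ y, φ y ∈ Oins ↔ y ∈ Oins') {x : F} (hx : Oins.valuation x = 1) :
    Oins'.valuation (Nm x) = 1 := by
  apply Count_unit_of_map hc
  have hxm : x ∈ Oins := (valuation_eq_one_iff.1 hx).1
  exact valuation_eq_one_of_sub_mem (hV.red_ins x hxm) (by rw [map_pow, hx, one_pow])

omit [IsDomain R] [IsDiscreteValuationRing R] in
/-- (U') -/
theorem Count_unit_ab (hV : NormVal q φ Nm Oins Oa Ob Oins' Oab')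
    (hca : ∀ y, φ y ∈ Oa ↔ y ∈ Oab') (hcb : ∀ y, φ y ∈ Ob ↔ y ∈ Oab') {x : F}
    (hla : ∃ y ∈ Oab', x - φ y ∈ Oa.nonunits) (hlb : ∃ y ∈ Oab', x - φ y ∈ Ob.nonunits)
    (hxa : Oa.valuation x = 1) (hxb : Ob.valuation x = 1) : Oab'.valuation (Nm x) = 1 := by
  obtain ⟨ya, hya, hya'⟩ := hla
  obtain ⟨yb, hyb, hyb'⟩ := hlb
  have h1 : Oab'.valuation ya = 1 := by
    apply Count_unit_of_map hca
    refine valuation_eq_one_of_sub_mem (y := x) ?_ hxa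
    have := Count_nonunits_neg hya'
    rwa [neg_sub] at this
  have h2 : Oab'.valuation yb = 1 := by
    apply Count_unit_of_map hcb
    refine valuation_eq_one_of_sub_mem (y := x) ?_ hxb
    have := Count_nonunits_neg hyb'
    rwa [neg_sub] at this
  exact valuation_eq_one_of_sub_mem (hV.red_ab x ya yb hya hyb hya' hyb')
    (by rw [map_mul, map_pow, h1, h2, one_pow, one_mul])

omit [IsDomain R] [IsDiscreteValuationRing R] in
/-- (M), first case -/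
theorem Count_mem_a (hV : NormVal q φ Nm Oins Oa Ob Oins' Oab') {x : F}
    (hlb : ∃ y ∈ Oab', x - φ y ∈ Ob.nonunits) (hxa : x ∈ Oa.nonunits) :
    Nm x ∈ Oab'.nonunits := by
  obtain ⟨yb, hyb, hyb'⟩ := hlb
  have := hV.red_ab x 0 yb Oab'.zero_mem hyb (by rwa [map_zero, sub_zero]) hyb'
  rwa [zero_mul, sub_zero] at this

omit [IsDomain R] [IsDiscreteValuationRing R] in
/-- (M), second case -/
theorem Count_mem_b (hV : NormVal q φ Nm Oins Oa Ob Oins' Oab') (hq : 2 ≤ q) {x : F}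
    (hla : ∃ y ∈ Oab', x - φ y ∈ Oa.nonunits) (hxb : x ∈ Ob.nonunits) :
    Nm x ∈ Oab'.nonunits := by
  obtain ⟨ya, hya, hya'⟩ := hla
  have := hV.red_ab x ya 0 hya Oab'.zero_mem hya' (by rwa [map_zero, sub_zero])
  rwa [zero_pow (by omega), mul_zero, sub_zero] at this

omit [IsDomain R] [IsDiscreteValuationRing R] [Algebra R F'] in
/-- the counting argument -/
theorem Count_arith {V : ValuationSubring F'} {π' : F'} (h : IsDV V π') (hq : 2 ≤ q) {A B : F'}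
    (hA : A ∈ V.nonunits) (hB : B ∈ V.nonunits) (hA0 : A ≠ 0) (hB0 : B ≠ 0)
    (hAB : V.valuation A * V.valuation B ^ (q - 1) = V.valuation π' ^ q) :
    V.valuation A = V.valuation π' ∧ V.valuation B = V.valuation π' := by
  obtain ⟨α, hα⟩ := h.exists_zpow hA0
  obtain ⟨β, hβ⟩ := h.exists_zpow hB0
  have hπ0 : V.valuation π' ≠ 0 := (Valuation.ne_zero_iff _).2 h.ne_zero
  have hα1 : 0 < α := by
    rw [← h.zpow_lt_one_iff, ← hα]
    exact (ValuationSubring.mem_nonunits_iff _).1 hA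
  have hβ1 : 0 < β := by
    rw [← h.zpow_lt_one_iff, ← hβ]
    exact (ValuationSubring.mem_nonunits_iff _).1 hB
  have h1 : V.valuation π' ^ (α + β * ((q - 1 : ℕ) : ℤ)) = V.valuation π' ^ ((q : ℕ) : ℤ) := by
    rw [zpow_add₀ hπ0, zpow_mul, zpow_natCast, zpow_natCast, ← hα, ← hβ]
    exact hAB
  have h2 := h.zpow_injective h1
  have h3 : ((q - 1 : ℕ) : ℤ) = (q : ℤ) - 1 := by
    rw [Nat.cast_sub (by omega)]
    simp
  rw [h3] at h2
  have hq' : (2 : ℤ) ≤ q := by exact_mod_cast hq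
  have hβ2 : β ≤ 1 := by
    by_contra hcon
    push Not at hcon
    nlinarith
  have hβ3 : β = 1 := by omega
  have hα3 : α = 1 := by
    rw [hβ3] at h2
    omega
  rw [hα, hβ, hα3, hβ3, zpow_one]
  exact ⟨rfl, rfl⟩

end CountHelpers

theorem NormData.unit_N1 (D : NormData ϖ q 𝒪 Oi' Oz' φ1 φ2 N1 N2 T E) {x : F}
    (hx : UnitAll 𝒪 x) : Oi'.valuation (N1 x) = 1 ∧ Oz'.valuation (N1 x) = 1 := by
  have hm : ∀ i, x ∈ 𝒪 i := fun i => (valuation_eq_one_iff.1 (hx i)).1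
  exact ⟨Count_unit_ab D.nv1 D.comap1_0 D.comap1_1 (D.lift1_0 _ hm) (D.lift1_1 _ hm) (hx 0) (hx 1),
    Count_unit_ins D.nv1 D.comap1_2 (hx 2)⟩

theorem NormData.unit_N2 (D : NormData ϖ q 𝒪 Oi' Oz' φ1 φ2 N1 N2 T E) {x : F}
    (hx : UnitAll 𝒪 x) : Oi'.valuation (N2 x) = 1 ∧ Oz'.valuation (N2 x) = 1 := by
  have hm : ∀ i, x ∈ 𝒪 i := fun i => (valuation_eq_one_iff.1 (hx i)).1
  exact ⟨Count_unit_ins D.nv2 D.comap2_0 (hx 0),
    Count_unit_ab D.nv2 D.comap2_2 D.comap2_1 (D.lift2_2 _ hm) (D.lift2_1 _ hm) (hx 2) (hx 1)⟩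

theorem NormData.Count_mem_X (D : NormData ϖ q 𝒪 Oi' Oz' φ1 φ2 N1 N2 T E) :
    ∀ i, XF ϖ q T E ∈ 𝒪 i := by
  obtain ⟨h0, h1, h2⟩ := D.val_X
  refine Count_forall3 ?_ ?_ ?_
  · exact ValuationSubring.nonunits_subset ((ValuationSubring.mem_nonunits_iff _).2
      (by rw [h0]; exact (ValuationSubring.mem_nonunits_iff _).1 D.dv0.mem))
  · exact (valuation_eq_one_iff.1 h1).1
  · exact (valuation_eq_one_iff.1 h2).1

theorem NormData.Count_mem_T (D : NormData ϖ q 𝒪 Oi' Oz' φ1 φ2 N1 N2 T E) : ∀ i, T ∈ 𝒪 i := by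
  refine Count_forall3 ?_ ?_ ?_
  · exact (valuation_eq_one_iff.1 D.T_unit0).1
  · exact ValuationSubring.nonunits_subset D.dv1.mem
  · exact (valuation_eq_one_iff.1 D.T_unit2).1

theorem NormData.Count_mem_P (D : NormData ϖ q 𝒪 Oi' Oz' φ1 φ2 N1 N2 T E) :
    ∀ i, PF ϖ E ∈ 𝒪 i := by
  obtain ⟨h0, h1, h2⟩ := D.val_P
  refine Count_forall3 ?_ ?_ ?_
  · exact (valuation_eq_one_iff.1 h0).1
  · exact (valuation_eq_one_iff.1 h1).1
  · exact ValuationSubring.nonunits_subset ((ValuationSubring.mem_nonunits_iff _).2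
      (by rw [h2]; exact (ValuationSubring.mem_nonunits_iff _).1 D.dv2.mem))

theorem NormData.Count_X_mem0 (D : NormData ϖ q 𝒪 Oi' Oz' φ1 φ2 N1 N2 T E) :
    XF ϖ q T E ∈ (𝒪 0).nonunits :=
  (ValuationSubring.mem_nonunits_iff _).2
    (by rw [D.val_X.1]; exact (ValuationSubring.mem_nonunits_iff _).1 D.dv0.mem)

theorem NormData.Count_P_mem2 (D : NormData ϖ q 𝒪 Oi' Oz' φ1 φ2 N1 N2 T E) :
    PF ϖ E ∈ (𝒪 2).nonunits :=
  (ValuationSubring.mem_nonunits_iff _).2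
    (by rw [D.val_P.2.2]; exact (ValuationSubring.mem_nonunits_iff _).1 D.dv2.mem)

theorem NormData.Count_prod1 (D : NormData ϖ q 𝒪 Oi' Oz' φ1 φ2 N1 N2 T E) :
    N1 (XF ϖ q T E) * N1 T ^ (q - 1) * N1 (PF ϖ E) = algebraMap R F' ϖ ^ q := by
  rw [← D.const1 ϖ, D.unif_eq, map_mul, map_mul, map_pow]

theorem NormData.Count_prod2 (D : NormData ϖ q 𝒪 Oi' Oz' φ1 φ2 N1 N2 T E) :
    N2 (XF ϖ q T E) * N2 T ^ (q - 1) * N2 (PF ϖ E) = algebraMap R F' ϖ ^ q := by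
  rw [← D.const2 ϖ, D.unif_eq, map_mul, map_mul, map_pow]

/-- all the valuations of the norms `N1 X`, `N1 T`, `N1 P`. -/
theorem NormData.Count_all1 (D : NormData ϖ q 𝒪 Oi' Oz' φ1 φ2 N1 N2 T E) :
    (Oi'.valuation (N1 T) = Oi'.valuation (algebraMap R F' ϖ) ∧ Oz'.valuation (N1 T) = 1) ∧
    (Oi'.valuation (N1 (PF ϖ E)) = 1 ∧
      Oz'.valuation (N1 (PF ϖ E)) = Oz'.valuation (algebraMap R F' ϖ) ^ q) := by
  have hprod := D.Count_prod1
  have hπ0 : algebraMap R F' ϖ ^ q ≠ 0 := pow_ne_zero _ D.dvi'.ne_zero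
  have hX0 : N1 (XF ϖ q T E) ≠ 0 := by
    intro h
    rw [h, zero_mul, zero_mul] at hprod
    exact hπ0 hprod.symm
  have hT0 : N1 T ≠ 0 := by
    intro h
    rw [h, zero_pow (by have := D.two_le; omega), mul_zero, zero_mul] at hprod
    exact hπ0 hprod.symm
  -- at `Oi'`
  have hPi : Oi'.valuation (N1 (PF ϖ E)) = 1 :=
    Count_unit_ab D.nv1 D.comap1_0 D.comap1_1 (D.lift1_0 _ D.Count_mem_P)
      (D.lift1_1 _ D.Count_mem_P) D.val_P.1 D.val_P.2.1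
  have hXi : N1 (XF ϖ q T E) ∈ Oi'.nonunits :=
    Count_mem_a D.nv1 (D.lift1_1 _ D.Count_mem_X) D.Count_X_mem0
  have hTi : N1 T ∈ Oi'.nonunits :=
    Count_mem_b D.nv1 D.two_le (D.lift1_0 _ D.Count_mem_T) D.dv1.mem
  have h1 := congrArg Oi'.valuation hprod
  rw [map_mul, map_mul, map_pow, map_pow, hPi, mul_one] at h1
  have h2 := Count_arith D.dvi' D.two_le hXi hTi hX0 hT0 h1
  -- at `Oz'`
  have hXz : Oz'.valuation (N1 (XF ϖ q T E)) = 1 := Count_unit_ins D.nv1 D.comap1_2 D.val_X.2.2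
  have hTz : Oz'.valuation (N1 T) = 1 := Count_unit_ins D.nv1 D.comap1_2 D.T_unit2
  have h3 := congrArg Oz'.valuation hprod
  rw [map_mul, map_mul, map_pow, map_pow, hXz, hTz, one_pow, one_mul, one_mul] at h3
  exact ⟨⟨h2.2, hTz⟩, hPi, h3⟩

/-- all the valuations of the norms `N2 X`, `N2 T`, `N2 P`. -/
theorem NormData.Count_all2 (D : NormData ϖ q 𝒪 Oi' Oz' φ1 φ2 N1 N2 T E) :
    (Oi'.valuation (N2 T) = 1 ∧ Oz'.valuation (N2 T) = Oz'.valuation (algebraMap R F' ϖ)) ∧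
    (Oi'.valuation (N2 (PF ϖ E)) = 1 ∧
      Oz'.valuation (N2 (PF ϖ E)) = Oz'.valuation (algebraMap R F' ϖ)) := by
  have hprod := D.Count_prod2
  have hπ0 : algebraMap R F' ϖ ^ q ≠ 0 := pow_ne_zero _ D.dvi'.ne_zero
  have hP0 : N2 (PF ϖ E) ≠ 0 := by
    intro h
    rw [h, mul_zero] at hprod
    exact hπ0 hprod.symm
  have hT0 : N2 T ≠ 0 := by
    intro h
    rw [h, zero_pow (by have := D.two_le; omega), mul_zero, zero_mul] at hprod
    exact hπ0 hprod.symm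
  -- at `Oi'`
  have hTi : Oi'.valuation (N2 T) = 1 := Count_unit_ins D.nv2 D.comap2_0 D.T_unit0
  have hPi : Oi'.valuation (N2 (PF ϖ E)) = 1 := Count_unit_ins D.nv2 D.comap2_0 D.val_P.1
  -- at `Oz'`
  have hXz : Oz'.valuation (N2 (XF ϖ q T E)) = 1 :=
    Count_unit_ab D.nv2 D.comap2_2 D.comap2_1 (D.lift2_2 _ D.Count_mem_X)
      (D.lift2_1 _ D.Count_mem_X) D.val_X.2.2 D.val_X.2.1
  have hPz : N2 (PF ϖ E) ∈ Oz'.nonunits :=
    Count_mem_a D.nv2 (D.lift2_1 _ D.Count_mem_P) D.Count_P_mem2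
  have hTz : N2 T ∈ Oz'.nonunits :=
    Count_mem_b D.nv2 D.two_le (D.lift2_2 _ D.Count_mem_T) D.dv1.mem
  have h1 := congrArg Oz'.valuation hprod
  rw [map_mul, map_mul, map_pow, map_pow, hXz, one_mul, mul_comm] at h1
  have h2 := Count_arith D.dvz' D.two_le hPz hTz hP0 hT0 h1
  exact ⟨⟨hTi, h2.2⟩, hPi, h2.1⟩

theorem NormData.val_N1_T (D : NormData ϖ q 𝒪 Oi' Oz' φ1 φ2 N1 N2 T E) :
    Oi'.valuation (N1 T) = Oi'.valuation (algebraMap R F' ϖ) ∧ Oz'.valuation (N1 T) = 1 := by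
  exact D.Count_all1.1

theorem NormData.val_N1_P (D : NormData ϖ q 𝒪 Oi' Oz' φ1 φ2 N1 N2 T E) :
    Oi'.valuation (N1 (PF ϖ E)) = 1 ∧
      Oz'.valuation (N1 (PF ϖ E)) = Oz'.valuation (algebraMap R F' ϖ) ^ q := by
  exact D.Count_all1.2

theorem NormData.val_N2_T (D : NormData ϖ q 𝒪 Oi' Oz' φ1 φ2 N1 N2 T E) :
    Oi'.valuation (N2 T) = 1 ∧ Oz'.valuation (N2 T) = Oz'.valuation (algebraMap R F' ϖ) := by
  exact D.Count_all2.1

theorem NormData.val_N2_P (D : NormData ϖ q 𝒪 Oi' Oz' φ1 φ2 N1 N2 T E) :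
    Oi'.valuation (N2 (PF ϖ E)) = 1 ∧
      Oz'.valuation (N2 (PF ϖ E)) = Oz'.valuation (algebraMap R F' ϖ) := by
  exact D.Count_all2.2

end Fermat.Agent.GT.Val
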