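import Fermat.Agent.GT.Val.Norm.Ord

/-! GT-VAL, layer Norm, file Decomp: `u = ϖ^m T^k P^l u'` with `u'` a unit at the three valuations.

`P = ϖ + E²`: `v(P) = (0, 0, 1)` (at `𝒪 2`: `P / ϖ = 1 + E (E / ϖ) ≡ 1`).
`X = ϖ / (T^(q-1) P)`: `v(X) = (1, 0, 0)`.
Decomposition: `m` = order of `u` at `𝒪 0`, then `k` = order of `u / ϖ^m` at `𝒪 1` (uniformizer `T`), then
`l` = order of `u / (ϖ^m T^k)` at `𝒪 2` (uniformizer `P`). -/

set_option autoImplicit false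

namespace Fermat.Agent.GT.Val

open Fermat.Agent.GR.E Fermat.Agent.GS Fermat.Agent.GT Fermat.Agent.GT.Glue

variable {R : Type*} [CommRing R] [IsDomain R] [IsDiscreteValuationRing R]
variable {F F' : Type*} [Field F] [Field F'] [Algebra R F] [Algebra R F']
variable {ϖ : R} {q : ℕ} {𝒪 : Fin 3 → ValuationSubring F} {Oi' Oz' : ValuationSubring F'}
  {φ1 φ2 : F' →ₐ[R] F} {N1 N2 : F →* F'} {T E : F}

/-- `P = ϖ + E²`. -/
def PF (ϖ : R) (E : F) : F := algebraMap R F ϖ + E ^ 2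

/-- `X = ϖ / (T^(q-1) P)`. -/
def XF (ϖ : R) (q : ℕ) (T E : F) : F := algebraMap R F ϖ / (T ^ (q - 1) * PF ϖ E)

theorem Decomp_val_lt_one {K : Type*} [Field K] {V : ValuationSubring K} {x : K}
    (h : x ∈ V.nonunits) : V.valuation x < 1 :=
  (ValuationSubring.mem_nonunits_iff V).1 h

theorem Decomp_val_add_of_lt {K : Type*} [Field K] {V : ValuationSubring K} {x y : K}
    (h : V.valuation x < 1) (hy : V.valuation y = 1) : V.valuation (x + y ^ 2) = 1 := by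
  have h2 : V.valuation (y ^ 2) = 1 := by rw [map_pow, hy, one_pow]
  rw [Valuation.map_add_eq_of_lt_right _ (by rw [h2]; exact h), h2]

theorem NormData.val_P (D : NormData ϖ q 𝒪 Oi' Oz' φ1 φ2 N1 N2 T E) :
    (𝒪 0).valuation (PF ϖ E) = 1 ∧ (𝒪 1).valuation (PF ϖ E) = 1 ∧
      (𝒪 2).valuation (PF ϖ E) = (𝒪 2).valuation (algebraMap R F ϖ) := by
  refine ⟨Decomp_val_add_of_lt (Decomp_val_lt_one D.dv0.mem) D.E_unit0, ?_, ?_⟩
  · refine Decomp_val_add_of_lt ?_ D.E_unit1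
    rw [← D.T_ram]
    have hq : q - 1 ≠ 0 := by have := D.two_le; omega
    exact pow_lt_one₀ zero_le (Decomp_val_lt_one D.dv1.mem) hq
  · have hE : (𝒪 2).valuation E < 1 := Decomp_val_lt_one D.E_mem2
    have hϖ0 : (𝒪 2).valuation (algebraMap R F ϖ) ≠ 0 :=
      ((𝒪 2).valuation.ne_zero_iff).2 D.dv2.ne_zero
    have hdiv : (𝒪 2).valuation (E / algebraMap R F ϖ) ≤ 1 :=
      ((𝒪 2).valuation_le_one_iff _).2 (D.dv2.unif E D.E_mem2)
    have hle : (𝒪 2).valuation E ≤ (𝒪 2).valuation (algebraMap R F ϖ) := by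
      rw [map_div₀] at hdiv
      have := (div_le_iff₀ (zero_lt_iff.2 hϖ0)).1 hdiv
      simpa using this
    have hlt : (𝒪 2).valuation (E ^ 2) < (𝒪 2).valuation (algebraMap R F ϖ) := by
      rw [map_pow, pow_two]
      calc (𝒪 2).valuation E * (𝒪 2).valuation E
          ≤ (𝒪 2).valuation E * (𝒪 2).valuation (algebraMap R F ϖ) :=
            mul_le_mul_right hle _
        _ < 1 * (𝒪 2).valuation (algebraMap R F ϖ) :=
            mul_lt_mul_of_pos_right hE (zero_lt_iff.2 hϖ0)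
        _ = _ := one_mul _
    exact Valuation.map_add_eq_of_lt_left _ hlt

theorem NormData.Decomp_P_ne_zero (D : NormData ϖ q 𝒪 Oi' Oz' φ1 φ2 N1 N2 T E) :
    PF ϖ E ≠ 0 := by
  intro h
  have := D.val_P.1
  rw [h, map_zero] at this
  exact zero_ne_one this

theorem NormData.val_X (D : NormData ϖ q 𝒪 Oi' Oz' φ1 φ2 N1 N2 T E) :
    (𝒪 0).valuation (XF ϖ q T E) = (𝒪 0).valuation (algebraMap R F ϖ) ∧
      (𝒪 1).valuation (XF ϖ q T E) = 1 ∧ (𝒪 2).valuation (XF ϖ q T E) = 1 := by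
  obtain ⟨h0, h1, h2⟩ := D.val_P
  refine ⟨?_, ?_, ?_⟩
  · rw [XF, map_div₀, map_mul, map_pow, h0, D.T_unit0, one_pow, one_mul, div_one]
  · rw [XF, map_div₀, map_mul, map_pow, h1, D.T_ram, mul_one]
    exact div_self (((𝒪 1).valuation.ne_zero_iff).2 D.dv0.ne_zero)
  · rw [XF, map_div₀, map_mul, map_pow, h2, D.T_unit2, one_pow, one_mul]
    exact div_self (((𝒪 2).valuation.ne_zero_iff).2 D.dv0.ne_zero)

theorem NormData.unif_eq (D : NormData ϖ q 𝒪 Oi' Oz' φ1 φ2 N1 N2 T E) :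
    algebraMap R F ϖ = XF ϖ q T E * T ^ (q - 1) * PF ϖ E := by
  have hP := D.Decomp_P_ne_zero
  have hT : T ^ (q - 1) ≠ 0 := pow_ne_zero _ D.dv1.ne_zero
  rw [XF, mul_assoc, div_mul_cancel₀ _ (mul_ne_zero hT hP)]

theorem NormData.exists_decomp (D : NormData ϖ q 𝒪 Oi' Oz' φ1 φ2 N1 N2 T E) {u : F}
    (hu : u ≠ 0) :
    ∃ (m k l : ℤ) (u' : F), UnitAll 𝒪 u' ∧
      u = algebraMap R F ϖ ^ m * T ^ k * PF ϖ E ^ l * u' := by
  obtain ⟨hP0, hP1, hP2⟩ := D.val_P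
  have hP := D.Decomp_P_ne_zero
  have hϖ : algebraMap R F ϖ ≠ 0 := D.dv0.ne_zero
  have hT : T ≠ 0 := D.dv1.ne_zero
  obtain ⟨m, hm⟩ := D.dv0.exists_zpow hu
  have hu1 : u / algebraMap R F ϖ ^ m ≠ 0 := div_ne_zero hu (zpow_ne_zero _ hϖ)
  obtain ⟨k, hk⟩ := D.dv1.exists_zpow hu1
  have hu2 : u / algebraMap R F ϖ ^ m / T ^ k ≠ 0 := div_ne_zero hu1 (zpow_ne_zero _ hT)
  obtain ⟨l, hl⟩ := D.dv2.exists_zpow hu2
  refine ⟨m, k, l, u / algebraMap R F ϖ ^ m / T ^ k / PF ϖ E ^ l, ?_, ?_⟩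
  · intro i
    fin_cases i
    · show (𝒪 0).valuation _ = 1
      rw [map_div₀, map_div₀, map_div₀, map_zpow₀, map_zpow₀, map_zpow₀, hP0, D.T_unit0, hm,
        one_zpow, one_zpow, div_one, div_one]
      exact div_self (zpow_ne_zero _ (((𝒪 0).valuation.ne_zero_iff).2 hϖ))
    · show (𝒪 1).valuation _ = 1
      rw [map_div₀, map_div₀, hk, map_zpow₀, map_zpow₀, hP1, one_zpow, div_one]
      exact div_self (zpow_ne_zero _ (((𝒪 1).valuation.ne_zero_iff).2 hT))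
    · show (𝒪 2).valuation _ = 1
      rw [map_div₀, hl, map_zpow₀, hP2]
      exact div_self (zpow_ne_zero _ (((𝒪 2).valuation.ne_zero_iff).2 hϖ))
  · have h1 := zpow_ne_zero m hϖ
    have h2 := zpow_ne_zero k hT
    have h3 := zpow_ne_zero l hP
    field_simp

end Fermat.Agent.GT.Val
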