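import Fermat.Agent.GT.Val.Norm.Count

/-! GT-VAL, layer Norm, file Mult: the vertical multiplicities.

`u = ϖ^m T^k P^l u'`.  Orders (w.r.t. `ϖ`): `o_i(N1 u) = q m + k`, `o_z(N1 u) = q m + q l`,
`o_i(N2 u) = q m`, `o_z(N2 u) = q m + k + l`.  If `N u * s = r * z^n` (`ConstPow`) then
`o_i(N u) - o_z(N u) = n (o_i z - o_z z)` because a constant has the same order at `Oi'` and `Oz'`
(`exists_valuation_algebraMap`).  So `n ∣ k - q l` and `n ∣ k + l`; hence `n ∣ (q+1) l`, `n ∣ (q+1) k`. -/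

set_option autoImplicit false

namespace Fermat.Agent.GT.Val

open Fermat.Agent.GR.E Fermat.Agent.GS Fermat.Agent.GT Fermat.Agent.GT.Glue

variable {R : Type*} [CommRing R] [IsDomain R] [IsDiscreteValuationRing R]
variable {F F' : Type*} [Field F] [Field F'] [Algebra R F] [Algebra R F']
variable {ϖ : R} {q : ℕ} {𝒪 : Fin 3 → ValuationSubring F} {Oi' Oz' : ValuationSubring F'}
  {φ1 φ2 : F' →ₐ[R] F} {N1 N2 : F →* F'} {T E : F}

omit [IsDomain R] [IsDiscreteValuationRing R] [Algebra R F] [Algebra R F'] in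
theorem Mult_map_ne_zero (N : F →* F') {x : F} (hx : x ≠ 0) : N x ≠ 0 := by
  intro h
  have h1 : N x * N x⁻¹ = 1 := by rw [← map_mul, mul_inv_cancel₀ hx, map_one]
  rw [h, zero_mul] at h1
  exact zero_ne_one h1

omit [IsDomain R] [IsDiscreteValuationRing R] [Algebra R F] [Algebra R F'] in
theorem Mult_map_inv (N : F →* F') {x : F} (hx : x ≠ 0) : N x⁻¹ = (N x)⁻¹ := by
  have h1 : N x * N x⁻¹ = 1 := by rw [← map_mul, mul_inv_cancel₀ hx, map_one]
  exact eq_inv_of_mul_eq_one_right h1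

omit [IsDomain R] [IsDiscreteValuationRing R] [Algebra R F] [Algebra R F'] in
theorem Mult_map_zpow (N : F →* F') {x : F} (hx : x ≠ 0) (k : ℤ) : N (x ^ k) = N x ^ k := by
  cases k with
  | ofNat k => simp only [Int.ofNat_eq_natCast, zpow_natCast, map_pow]
  | negSucc k => rw [zpow_negSucc, zpow_negSucc, Mult_map_inv N (pow_ne_zero _ hx), map_pow]

/-- the order relation at one discrete valuation. -/
theorem Mult_order_rel {V : ValuationSubring F'} (hϖ : Irreducible ϖ)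
    (hdv : IsDV V (algebraMap R F' ϖ)) (hR : ∀ r : R, algebraMap R F' r ∈ V)
    {n : ℕ} {v z : F'} {ρ σ : Rˣ} {α β : ℕ} (hv : v ≠ 0)
    (h : v * algebraMap R F' (σ * ϖ ^ β) = algebraMap R F' (ρ * ϖ ^ α) * z ^ n) {a : ℤ}
    (ha : V.valuation v = V.valuation (algebraMap R F' ϖ) ^ a) :
    ∃ c : ℤ, a + β = α + n * c := by
  have hπ : V.valuation (algebraMap R F' ϖ) ≠ 0 := (map_ne_zero _).2 hdv.ne_zero
  have hunit : ∀ ρ : Rˣ, V.valuation (algebraMap R F' (ρ : R)) = 1 := by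
    intro ρ
    have h1 : V.valuation (algebraMap R F' (ρ : R)) ≤ 1 := (V.valuation_le_one_iff _).2 (hR _)
    have h2 : V.valuation (algebraMap R F' ((ρ⁻¹ : Rˣ) : R)) ≤ 1 :=
      (V.valuation_le_one_iff _).2 (hR _)
    have h3 : V.valuation (algebraMap R F' (ρ : R)) *
        V.valuation (algebraMap R F' ((ρ⁻¹ : Rˣ) : R)) = 1 := by
      rw [← map_mul, ← map_mul, Units.mul_inv, map_one, map_one]
    exact eq_one_of_one_le_mul_left h1 h2 h3.ge
  have hval : ∀ (ρ : Rˣ) (α : ℕ), V.valuation (algebraMap R F' (ρ * ϖ ^ α)) =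
      V.valuation (algebraMap R F' ϖ) ^ (α : ℤ) := by
    intro ρ α
    rw [map_mul, map_mul, hunit, one_mul, map_pow, map_pow, zpow_natCast]
  have hs0 : algebraMap R F' (σ * ϖ ^ β) ≠ 0 := by
    intro h0
    have := hval σ β
    rw [h0, map_zero] at this
    exact zpow_ne_zero _ hπ this.symm
  have hzn : z ^ n ≠ 0 := by
    intro h0
    rw [h0, mul_zero] at h
    exact mul_ne_zero hv hs0 h
  obtain ⟨c, hc⟩ : ∃ c : ℤ, V.valuation (z ^ n) = V.valuation (algebraMap R F' ϖ) ^ (n * c) := by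
    by_cases hz : z = 0
    · have hn : n = 0 := by
        by_contra hn
        exact hzn (by rw [hz, zero_pow hn])
      subst hn
      exact ⟨0, by simp⟩
    · obtain ⟨c, hc⟩ := hdv.exists_zpow hz
      exact ⟨c, by rw [map_pow, hc, ← zpow_natCast, ← zpow_mul, mul_comm]⟩
  refine ⟨c, hdv.zpow_injective ?_⟩
  have h1 : V.valuation v * V.valuation (algebraMap R F' (σ * ϖ ^ β)) =
      V.valuation (algebraMap R F' (ρ * ϖ ^ α)) * V.valuation (z ^ n) := by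
    rw [← Valuation.map_mul, ← Valuation.map_mul, h]
  rw [hval, hval, ha, hc, ← zpow_add₀ hπ, ← zpow_add₀ hπ] at h1
  exact h1

theorem NormData.dvd_of_constPow (hϖ : Irreducible ϖ)
    (D : NormData ϖ q 𝒪 Oi' Oz' φ1 φ2 N1 N2 T E) {n : ℕ} {v : F'} (hv : v ≠ 0)
    (h : ConstPow R n v) {a b : ℤ}
    (ha : Oi'.valuation v = Oi'.valuation (algebraMap R F' ϖ) ^ a)
    (hb : Oz'.valuation v = Oz'.valuation (algebraMap R F' ϖ) ^ b) : (n : ℤ) ∣ a - b := by
  obtain ⟨r, s, z, hr, hs, h⟩ := h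
  obtain ⟨α, ρ, rfl⟩ := IsDiscreteValuationRing.eq_unit_mul_pow_irreducible hr hϖ
  obtain ⟨β, σ, rfl⟩ := IsDiscreteValuationRing.eq_unit_mul_pow_irreducible hs hϖ
  obtain ⟨c, hc⟩ := Mult_order_rel hϖ D.dvi' D.memRi' hv h ha
  obtain ⟨d, hd⟩ := Mult_order_rel hϖ D.dvz' D.memRz' hv h hb
  exact ⟨c - d, by linarith⟩

theorem NormData.dvd_mult (hϖ : Irreducible ϖ) (D : NormData ϖ q 𝒪 Oi' Oz' φ1 φ2 N1 N2 T E)
    {n : ℕ} {m k l : ℤ} {u' : F} (hu' : UnitAll 𝒪 u')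
    (h1 : ConstPow R n (N1 (algebraMap R F ϖ ^ m * T ^ k * PF ϖ E ^ l * u')))
    (h2 : ConstPow R n (N2 (algebraMap R F ϖ ^ m * T ^ k * PF ϖ E ^ l * u'))) :
    (n : ℤ) ∣ (q + 1) * k ∧ (n : ℤ) ∣ (q + 1) * l := by
  have hπ0 : algebraMap R F ϖ ≠ 0 := D.dv0.ne_zero
  have hT0 : T ≠ 0 := D.dv1.ne_zero
  have hP0 : PF ϖ E ≠ 0 := by
    intro h0
    have := D.val_P.1
    rw [h0, map_zero] at this
    exact zero_ne_one this
  have hu0 : u' ≠ 0 := by
    intro h0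
    have := hu' 0
    rw [h0, map_zero] at this
    exact zero_ne_one this
  have hU0 : algebraMap R F ϖ ^ m * T ^ k * PF ϖ E ^ l * u' ≠ 0 :=
    mul_ne_zero (mul_ne_zero (mul_ne_zero (zpow_ne_zero _ hπ0) (zpow_ne_zero _ hT0))
      (zpow_ne_zero _ hP0)) hu0
  have hπi : Oi'.valuation (algebraMap R F' ϖ) ≠ 0 := (map_ne_zero _).2 D.dvi'.ne_zero
  have hπz : Oz'.valuation (algebraMap R F' ϖ) ≠ 0 := (map_ne_zero _).2 D.dvz'.ne_zero
  have e1 : N1 (algebraMap R F ϖ ^ m * T ^ k * PF ϖ E ^ l * u') =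
      (algebraMap R F' ϖ ^ q) ^ m * N1 T ^ k * N1 (PF ϖ E) ^ l * N1 u' := by
    rw [map_mul, map_mul, map_mul, Mult_map_zpow N1 hπ0, Mult_map_zpow N1 hT0,
      Mult_map_zpow N1 hP0, D.const1]
  have e2 : N2 (algebraMap R F ϖ ^ m * T ^ k * PF ϖ E ^ l * u') =
      (algebraMap R F' ϖ ^ q) ^ m * N2 T ^ k * N2 (PF ϖ E) ^ l * N2 u' := by
    rw [map_mul, map_mul, map_mul, Mult_map_zpow N2 hπ0, Mult_map_zpow N2 hT0,
      Mult_map_zpow N2 hP0, D.const2]
  have a1 : Oi'.valuation (N1 (algebraMap R F ϖ ^ m * T ^ k * PF ϖ E ^ l * u')) =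
      Oi'.valuation (algebraMap R F' ϖ) ^ (q * m + k) := by
    rw [e1, map_mul, map_mul, map_mul, map_zpow₀, map_zpow₀, map_zpow₀, map_pow, D.val_N1_T.1,
      D.val_N1_P.1, (D.unit_N1 hu').1, one_zpow, mul_one, mul_one, ← zpow_natCast, ← zpow_mul,
      ← zpow_add₀ hπi]
  have b1 : Oz'.valuation (N1 (algebraMap R F ϖ ^ m * T ^ k * PF ϖ E ^ l * u')) =
      Oz'.valuation (algebraMap R F' ϖ) ^ (q * m + q * l) := by
    rw [e1, map_mul, map_mul, map_mul, map_zpow₀, map_zpow₀, map_zpow₀, map_pow, D.val_N1_T.2,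
      D.val_N1_P.2, (D.unit_N1 hu').2, one_zpow, mul_one, mul_one, ← zpow_natCast, ← zpow_mul,
      ← zpow_mul, ← zpow_add₀ hπz]
  have a2 : Oi'.valuation (N2 (algebraMap R F ϖ ^ m * T ^ k * PF ϖ E ^ l * u')) =
      Oi'.valuation (algebraMap R F' ϖ) ^ (q * m : ℤ) := by
    rw [e2, map_mul, map_mul, map_mul, map_zpow₀, map_zpow₀, map_zpow₀, map_pow, D.val_N2_T.1,
      D.val_N2_P.1, (D.unit_N2 hu').1, one_zpow, one_zpow, mul_one, mul_one, mul_one,
      ← zpow_natCast, ← zpow_mul]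
  have b2 : Oz'.valuation (N2 (algebraMap R F ϖ ^ m * T ^ k * PF ϖ E ^ l * u')) =
      Oz'.valuation (algebraMap R F' ϖ) ^ (q * m + k + l) := by
    rw [e2, map_mul, map_mul, map_mul, map_zpow₀, map_zpow₀, map_zpow₀, map_pow, D.val_N2_T.2,
      D.val_N2_P.2, (D.unit_N2 hu').2, mul_one, ← zpow_natCast, ← zpow_mul,
      ← zpow_add₀ hπz, ← zpow_add₀ hπz]
  obtain ⟨c, hc⟩ := D.dvd_of_constPow hϖ (Mult_map_ne_zero N1 hU0) h1 a1 b1
  obtain ⟨d, hd⟩ := D.dvd_of_constPow hϖ (Mult_map_ne_zero N2 hU0) h2 a2 b2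
  refine ⟨⟨c - q * d, ?_⟩, ⟨-d - c, ?_⟩⟩
  · have : ((q : ℤ) + 1) * k = (q * m + k - (q * m + q * l)) - q * (q * m - (q * m + k + l)) := by
      ring
    rw [this, hc, hd]
    ring
  · have : ((q : ℤ) + 1) * l = -(q * m - (q * m + k + l)) - (q * m + k - (q * m + q * l)) := by
      ring
    rw [this, hc, hd]
    ring

/-- formal properties of `ConstPow`. -/
theorem constPow_mul {n : ℕ} {v v' : F'} (h : ConstPow R n v) (h' : ConstPow R n v') :
    ConstPow R n (v * v') := by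
  obtain ⟨r, s, z, hr, hs, h⟩ := h
  obtain ⟨r', s', z', hr', hs', h'⟩ := h'
  refine ⟨r * r', s * s', z * z', mul_ne_zero hr hr', mul_ne_zero hs hs', ?_⟩
  rw [map_mul, map_mul, mul_pow]
  calc v * v' * (algebraMap R F' s * algebraMap R F' s')
      = (v * algebraMap R F' s) * (v' * algebraMap R F' s') := by ring
    _ = _ := by rw [h, h']; ring

theorem constPow_inv {n : ℕ} {v : F'} (h : ConstPow R n v) : ConstPow R n v⁻¹ := by
  by_cases hv : v = 0
  · rw [hv, inv_zero]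
    rwa [hv] at h
  by_cases hdeg : ∃ t : R, t ≠ 0 ∧ algebraMap R F' t = 0
  · obtain ⟨t, ht, ht0⟩ := hdeg
    exact ⟨t, t, 0, ht, ht, by rw [ht0, mul_zero, zero_mul]⟩
  obtain ⟨r, s, z, hr, hs, h⟩ := h
  have hr' : algebraMap R F' r ≠ 0 := fun h0 => hdeg ⟨r, hr, h0⟩
  have hs' : algebraMap R F' s ≠ 0 := fun h0 => hdeg ⟨s, hs, h0⟩
  have hzn : z ^ n ≠ 0 := by
    intro h0
    rw [h0, mul_zero] at h
    exact mul_ne_zero hv hs' h
  refine ⟨s, r, z⁻¹, hs, hr, ?_⟩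
  rw [inv_pow]
  field_simp
  rw [mul_comm, h, mul_comm]

theorem constPow_pow {n : ℕ} {v : F'} (h : ConstPow R n v) (a : ℕ) : ConstPow R n (v ^ a) := by
  induction a with
  | zero => exact ⟨1, 1, 1, one_ne_zero, one_ne_zero, by simp⟩
  | succ a ih => rw [pow_succ]; exact constPow_mul ih h

theorem constPow_pow_self (n : ℕ) (z : F') : ConstPow R n (z ^ n) :=
  ⟨1, 1, z, one_ne_zero, one_ne_zero, by rw [map_one, mul_one, one_mul]⟩

theorem constPow_algebraMap (n : ℕ) {r : R} (hr : r ≠ 0) : ConstPow R n (algebraMap R F' r) :=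
  ⟨r, 1, 1, hr, one_ne_zero, by rw [map_one, mul_one, one_pow, mul_one]⟩

theorem Mult_constPow_zpow {n : ℕ} {v : F'} (h : ConstPow R n v) (M : ℤ) :
    ConstPow R n (v ^ M) := by
  cases M with
  | ofNat k =>
    simp only [Int.ofNat_eq_natCast, zpow_natCast]
    exact constPow_pow h k
  | negSucc k =>
    rw [zpow_negSucc]
    exact constPow_inv (constPow_pow h _)

/-- the norm of `u₁ = u^(q+1) / (ϖ^M z^n)`. -/
theorem Mult_constPow_norm (hϖ : Irreducible ϖ) (N : F →* F')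
    (hconst : ∀ r : R, N (algebraMap R F r) = algebraMap R F' r ^ q)
    (hπ0 : algebraMap R F ϖ ≠ 0) {n : ℕ} {u z u₁ : F} {M : ℤ} (hz : z ≠ 0) (a : ℕ)
    (h : ConstPow R n (N u)) (hu₁ : u ^ a = algebraMap R F ϖ ^ M * z ^ n * u₁) :
    ConstPow R n (N u₁) := by
  have h1 : u₁ = u ^ a * (algebraMap R F ϖ ^ M)⁻¹ * (z ^ n)⁻¹ := by
    rw [hu₁]
    have := zpow_ne_zero M hπ0
    have := pow_ne_zero n hz
    field_simp
  have hNa : N (u ^ a) = N u ^ a := map_pow N u a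
  have hNz : N (z ^ n) = N z ^ n := map_pow N z n
  have hc : algebraMap R F' ϖ ^ q = algebraMap R F' (ϖ ^ q) := (map_pow _ _ _).symm
  rw [h1, map_mul, map_mul, hNa, Mult_map_inv N (zpow_ne_zero M hπ0),
    Mult_map_inv N (pow_ne_zero n hz), Mult_map_zpow N hπ0, hNz, hconst, hc]
  exact constPow_mul (constPow_mul (constPow_pow h a)
    (constPow_inv (Mult_constPow_zpow (constPow_algebraMap n (pow_ne_zero q hϖ.ne_zero)) M)))
    (constPow_inv (constPow_pow_self n _))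

/-- after raising to the power `q + 1`, `u` is a constant times an `n`-th power times a function `u₁`
which is a unit at the three valuations and still has two trivial norms. -/
theorem NormData.exists_unitAll (hϖ : Irreducible ϖ)
    (D : NormData ϖ q 𝒪 Oi' Oz' φ1 φ2 N1 N2 T E) {n : ℕ} (hn : 0 < n) {u : F} (hu : u ≠ 0)
    (h1 : ConstPow R n (N1 u)) (h2 : ConstPow R n (N2 u)) :
    ∃ (m : ℤ) (z u₁ : F), z ≠ 0 ∧ UnitAll 𝒪 u₁ ∧
      u ^ (q + 1) = algebraMap R F ϖ ^ m * z ^ n * u₁ ∧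
      ConstPow R n (N1 u₁) ∧ ConstPow R n (N2 u₁) := by
  obtain ⟨m, k, l, u', hu', rfl⟩ := D.exists_decomp hu
  obtain ⟨⟨k', hk'⟩, ⟨l', hl'⟩⟩ := D.dvd_mult hϖ hu' h1 h2
  have hπ0 : algebraMap R F ϖ ≠ 0 := D.dv0.ne_zero
  have hT0 : T ≠ 0 := D.dv1.ne_zero
  have hP0 : PF ϖ E ≠ 0 := by
    intro h0
    have := D.val_P.1
    rw [h0, map_zero] at this
    exact zero_ne_one this
  have hz : T ^ k' * PF ϖ E ^ l' ≠ 0 := mul_ne_zero (zpow_ne_zero _ hT0) (zpow_ne_zero _ hP0)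
  have hU : UnitAll 𝒪 (u' ^ (q + 1)) := fun i => by rw [map_pow, hu' i, one_pow]
  have key : (algebraMap R F ϖ ^ m * T ^ k * PF ϖ E ^ l * u') ^ (q + 1) =
      algebraMap R F ϖ ^ (m * (q + 1)) * (T ^ k' * PF ϖ E ^ l') ^ n * u' ^ (q + 1) := by
    have hk2 : (T ^ k) ^ (q + 1) = (T ^ k') ^ n := by
      rw [← zpow_natCast, ← zpow_natCast, ← zpow_mul, ← zpow_mul]
      congr 1
      push_cast
      rw [mul_comm k, hk', mul_comm]
    have hl2 : (PF ϖ E ^ l) ^ (q + 1) = (PF ϖ E ^ l') ^ n := by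
      rw [← zpow_natCast, ← zpow_natCast, ← zpow_mul, ← zpow_mul]
      congr 1
      push_cast
      rw [mul_comm l, hl', mul_comm]
    have hm2 : (algebraMap R F ϖ ^ m) ^ (q + 1) = algebraMap R F ϖ ^ (m * (q + 1)) := by
      rw [← zpow_natCast, ← zpow_mul]
      congr 1
    rw [mul_pow, mul_pow, mul_pow, mul_pow, hk2, hl2, hm2]
    ring
  exact ⟨m * (q + 1), _, _, hz, hU, key,
    Mult_constPow_norm hϖ N1 D.const1 hπ0 hz (q + 1) h1 key,
    Mult_constPow_norm hϖ N2 D.const2 hπ0 hz (q + 1) h2 key⟩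

end Fermat.Agent.GT.Val
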