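import Fermat.Agent.GT.Val.Norm.Defs
import Fermat.Agent.GT.Abs.Basic

/-! GT-VAL, layer Norm, file Ord: discrete valuation subrings, via `V.valuation`.
(`V.valuation x ≤ 1 ↔ x ∈ V`, `< 1 ↔ x ∈ V.nonunits`: `ValuationSubring.valuation_le_one_iff`,
`ValuationSubring.mem_nonunits_iff` / `valuation_lt_one_iff`.) -/

set_option autoImplicit false

namespace Fermat.Agent.GT.Val

open Fermat.Agent.GR.E Fermat.Agent.GS Fermat.Agent.GT

variable {F : Type*} [Field F] {V : ValuationSubring F} {π : F}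

theorem valuation_eq_one_iff {x : F} : V.valuation x = 1 ↔ x ∈ V ∧ x ∉ V.nonunits := by
  rw [← ValuationSubring.valuation_le_one_iff, ValuationSubring.mem_nonunits_iff, not_lt]
  exact ⟨fun h => ⟨h.le, h.ge⟩, fun h => le_antisymm h.1 h.2⟩

theorem valuation_eq_one_iff' {x : F} : V.valuation x = 1 ↔ x ∈ V ∧ x⁻¹ ∈ V ∧ x ≠ 0 := by
  rw [← ValuationSubring.valuation_le_one_iff, ← ValuationSubring.valuation_le_one_iff, map_inv₀]
  constructor
  · intro h
    refine ⟨h.le, by rw [h, inv_one], ?_⟩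
    rintro rfl
    rw [map_zero] at h
    exact zero_ne_one h
  · rintro ⟨h1, h2, h3⟩
    have hv : V.valuation x ≠ 0 := (Valuation.ne_zero_iff _).2 h3
    refine le_antisymm h1 ?_
    calc (1 : V.ValueGroup) = V.valuation x * (V.valuation x)⁻¹ := (mul_inv_cancel₀ hv).symm
      _ ≤ V.valuation x * 1 := by gcongr
      _ = V.valuation x := mul_one _

/-- `x ≡ y`, `y` a unit ⟹ `x` a unit. -/
theorem valuation_eq_one_of_sub_mem {x y : F} (h : x - y ∈ V.nonunits) (hy : V.valuation y = 1) :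
    V.valuation x = 1 := by
  rw [ValuationSubring.mem_nonunits_iff, ← hy] at h
  have := Valuation.map_add_eq_of_lt_right V.valuation h
  rwa [sub_add_cancel, hy] at this

theorem Ord_pos (h : IsDV V π) : 0 < V.valuation π :=
  zero_lt_iff.2 ((Valuation.ne_zero_iff _).2 h.ne_zero)

theorem Ord_lt_one (h : IsDV V π) : V.valuation π < 1 :=
  (ValuationSubring.mem_nonunits_iff V).1 h.mem

theorem Ord_exists_pow (h : IsDV V π) {x : F} (hx : x ≠ 0) (hxV : x ∈ V) :
    ∃ m : ℕ, V.valuation x = V.valuation π ^ m := by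
  classical
  have hex := h.disc x hx
  have hm0 : Nat.find hex ≠ 0 := by
    intro h0
    have := Nat.find_spec hex
    rw [h0, pow_zero, div_one] at this
    exact this hxV
  obtain ⟨k, hk⟩ : ∃ k, Nat.find hex = k + 1 := ⟨Nat.find hex - 1, by omega⟩
  have h1 : x / π ^ k ∈ V := by
    by_contra hc
    have := Nat.find_min' hex hc
    omega
  have h2 : x / π ^ k ∉ V.nonunits := by
    intro hc
    have h3 := h.unif _ hc
    have h4 := Nat.find_spec hex
    rw [hk, pow_succ, ← div_div] at h4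
    exact h4 h3
  have h5 := valuation_eq_one_iff.2 ⟨h1, h2⟩
  refine ⟨k, ?_⟩
  rw [map_div₀, map_pow, div_eq_one_iff_eq (pow_ne_zero _ (Ord_pos h).ne')] at h5
  exact h5

/-- every `x ≠ 0` is `π^m` times a unit. -/
theorem IsDV.exists_zpow (h : IsDV V π) {x : F} (hx : x ≠ 0) :
    ∃ m : ℤ, V.valuation x = V.valuation π ^ m := by
  rcases V.mem_or_inv_mem x with h1 | h1
  · obtain ⟨m, hm⟩ := Ord_exists_pow h hx h1
    exact ⟨m, by rw [hm, zpow_natCast]⟩
  · obtain ⟨m, hm⟩ := Ord_exists_pow h (inv_ne_zero hx) h1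
    refine ⟨-m, ?_⟩
    rw [map_inv₀] at hm
    rw [zpow_neg, zpow_natCast, ← hm, inv_inv]

theorem IsDV.zpow_injective (h : IsDV V π) {m m' : ℤ}
    (hm : V.valuation π ^ m = V.valuation π ^ m') : m = m' :=
  zpow_right_injective₀ (Ord_pos h) (Ord_lt_one h).ne hm

theorem IsDV.zpow_lt_one_iff (h : IsDV V π) {m : ℤ} : V.valuation π ^ m < 1 ↔ 0 < m :=
  zpow_lt_one_iff_right_of_lt_one₀ (Ord_pos h) (Ord_lt_one h)

theorem IsDV.zpow_le_one_iff (h : IsDV V π) {m : ℤ} : V.valuation π ^ m ≤ 1 ↔ 0 ≤ m :=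
  zpow_le_one_iff_right_of_lt_one₀ (Ord_pos h) (Ord_lt_one h)

/-- another uniformizer. -/
theorem IsDV.of_valuation_eq (h : IsDV V π) {π' : F} (h' : V.valuation π' = V.valuation π) :
    IsDV V π' where
  mem := by
    rw [ValuationSubring.mem_nonunits_iff, h']
    exact Ord_lt_one h
  ne_zero := by
    rw [← Valuation.ne_zero_iff V.valuation, h']
    exact (Ord_pos h).ne'
  unif := by
    intro x hx
    have := h.unif x hx
    rw [← ValuationSubring.valuation_le_one_iff, map_div₀] at this ⊢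
    rwa [h']
  disc := by
    intro x hx
    obtain ⟨m, hm⟩ := h.disc x hx
    refine ⟨m, ?_⟩
    rw [← ValuationSubring.valuation_le_one_iff, map_div₀, map_pow] at hm ⊢
    rwa [h']

theorem isDV_of_gaussRing {R : Type*} [CommRing R] [Algebra R F] {ϖ : R} (hG : GaussRing ϖ V)
    (hd : Disc ϖ V) : IsDV V (algebraMap R F ϖ) where
  mem := by
    by_contra hc
    have := valuation_eq_one_iff.2 ⟨hG.mem, hc⟩
    exact hG.inv_not_mem (valuation_eq_one_iff'.1 this).2.1
  ne_zero := hG.ne_zero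
  unif := by
    intro x hx
    have hxV : x ∈ V := by
      rw [← ValuationSubring.valuation_le_one_iff]
      exact ((ValuationSubring.mem_nonunits_iff V).1 hx).le
    rcases hG.unif x hxV with h1 | h1
    · exact h1
    · by_cases hx0 : x = 0
      · rw [hx0, zero_div]; exact V.zero_mem
      · exfalso
        have := valuation_eq_one_iff'.2 ⟨hxV, h1, hx0⟩
        exact (valuation_eq_one_iff.1 this).2 hx
  disc := hd

/-- a nonzero element of the DVR `R` is `ϖ^a` times a unit of `R`, so its valuation is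
`v(ϖ)^a`. -/
theorem exists_valuation_algebraMap {R : Type*} [CommRing R] [IsDomain R]
    [IsDiscreteValuationRing R] [Algebra R F] {ϖ : R} (hϖ : Irreducible ϖ)
    (hR : ∀ r : R, algebraMap R F r ∈ V) {r : R} (hr : r ≠ 0) :
    ∃ (a : ℕ) (ρ : Rˣ), r = ρ * ϖ ^ a ∧
      V.valuation (algebraMap R F r) = V.valuation (algebraMap R F ϖ) ^ a := by
  obtain ⟨a, ρ, h⟩ := IsDiscreteValuationRing.eq_unit_mul_pow_irreducible hr hϖ
  refine ⟨a, ρ, h, ?_⟩
  have h1 : algebraMap R F (ρ : R) * algebraMap R F ((ρ⁻¹ : Rˣ) : R) = 1 := by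
    rw [← map_mul, Units.mul_inv, map_one]
  have h2 : V.valuation (algebraMap R F (ρ : R)) = 1 := by
    rw [valuation_eq_one_iff']
    refine ⟨hR _, ?_, left_ne_zero_of_mul_eq_one h1⟩
    rw [← eq_inv_of_mul_eq_one_right h1]
    exact hR _
  rw [h, map_mul, map_mul, h2, one_mul, map_pow, map_pow]

end Fermat.Agent.GT.Val
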